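import Mathlib
import Fermat.Agent.MUL.S36.Ig.EpsGen
import Fermat.Agent.MUL.Orig.S48.W.G.Red.Igusa.DistUnit
import Fermat.Agent.MUL.Orig.S48.W.G.Red.Igusa.InvCore
import Fermat.Agent.MUL.S48.W.G.Red.Int
import Fermat.Agent.MUL.S48.W.P.Product

section MergeWrap_S48_W_G_Red_Igusa_Dist -- from S48/W/G/Red/Igusa/Dist.lean

set_option autoImplicit false

noncomputable section

namespace Fermat.Agent.S48WG

open Finset Fermat.Agent.S48W

variable {K : Type*} [Field K]

/-- the constant term of `wp_v`. -/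
def igConst (M : ℕ) (ζ : K) (r s : ZMod M) : K :=
  if r = 0 then 1 + 12 * (ζ ^ s.val / (1 - ζ ^ s.val) ^ 2) else 1

/-- the contribution of the divisor `d` of `n` to the coefficient of `q^n` in `wp_v / 12`. -/
def igTerm (M : ℕ) (ζ : K) (r s : ZMod M) (n d : ℕ) : K :=
  (if ((d : ℕ) : ZMod M) = r then ((n / d : ℕ) : K) * ζ ^ (s.val * (n / d)) else 0)
    + (if ((d : ℕ) : ZMod M) = -r then ((n / d : ℕ) : K) * ζ ^ ((-s).val * (n / d)) else 0)

/-- the coefficients of `wp_v = 12 ℘(r τ + s / M; M τ, 1) / (2 π i)²`, `v = (r, s)`. -/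
def igCoeff (M : ℕ) (ζ : K) (r s : ZMod M) (n : ℕ) : K :=
  (if n = 0 then igConst M ζ r s else 0)
    - 24 * (if n ≠ 0 ∧ M ∣ n then ∑ d ∈ (n / M).divisors, (d : K) else 0)
    + 12 * ∑ d ∈ n.divisors, igTerm M ζ r s n d

/-- `wp_v` as a power series in `q`. -/
def igX (M : ℕ) (ζ : K) (r s : ZMod M) : PowerSeries K := PowerSeries.mk (igCoeff M ζ r s)

@[simp] theorem coeff_igX (M : ℕ) (ζ : K) (r s : ZMod M) (n : ℕ) :
    PowerSeries.coeff n (igX M ζ r s) = igCoeff M ζ r s n := by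
  simp [igX]

/-! ### `s = 0`: the series `wpSeries M a` -/

theorem igCoeff_zero_right (M : ℕ) (ζ : K) {a : ZMod M} (ha : a ≠ 0) (n : ℕ) :
    igCoeff M ζ a 0 n = ((wpCoeff M a n : ℤ) : K) := by
  unfold igCoeff wpCoeff igTerm igConst
  simp only [ha, if_false, neg_zero, ZMod.val_zero, zero_mul, pow_zero, mul_one]
  simp only [Int.cast_add, Int.cast_sub, Int.cast_mul, Int.cast_sum, Int.cast_natCast,
    Int.cast_ofNat, apply_ite (Int.cast : ℤ → K), Int.cast_zero, Int.cast_one]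

theorem igX_zero_right (M : ℕ) (ζ : K) {a : ZMod M} (ha : a ≠ 0) :
    igX M ζ a 0 = (wpSeries M a).map (Int.castRingHom K) := by
  ext n
  simp [wpSeries, igCoeff_zero_right M ζ ha]

/-! ### the symmetry `v ↦ -v` -/

section sym

variable {M : ℕ} [NeZero M] {ζ : K}

theorem igConst_neg (hζ : ζ ^ M = 1) (r s : ZMod M) :
    igConst M ζ (-r) (-s) = igConst M ζ r s := by
  unfold igConst
  simp only [neg_eq_zero]
  congr 2
  rw [igu_pow_val_neg hζ]
  have hx := igu_pow_val_ne_zero hζ s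
  by_cases h1 : ζ ^ s.val = 1
  · simp [h1]
  · have h2 : (1 - ζ ^ s.val) ≠ 0 := fun h => h1 (sub_eq_zero.1 h).symm
    have h3 : (1 - (ζ ^ s.val)⁻¹) ≠ 0 := by
      intro h
      have : (ζ ^ s.val)⁻¹ = 1 := (sub_eq_zero.1 h).symm
      exact h1 (inv_eq_one.1 this)
    field_simp
    ring

omit [NeZero M] in
theorem igTerm_neg (r s : ZMod M) (n d : ℕ) :
    igTerm M ζ (-r) (-s) n d = igTerm M ζ r s n d := by
  unfold igTerm
  rw [neg_neg, neg_neg, add_comm]

theorem igCoeff_neg (hζ : ζ ^ M = 1) (r s : ZMod M) (n : ℕ) :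
    igCoeff M ζ (-r) (-s) n = igCoeff M ζ r s n := by
  unfold igCoeff
  rw [igConst_neg hζ]
  simp only [igTerm_neg]

theorem igX_neg (hζ : ζ ^ M = 1) (r s : ZMod M) : igX M ζ (-r) (-s) = igX M ζ r s := by
  ext n
  simp [igCoeff_neg hζ]

end sym

/-! ### integrality -/

section mem

variable (A : ValuationSubring K) {M : ℕ} [NeZero M] {ζ : K}

theorem igConst_mem (hζ : IsPrimitiveRoot ζ M) (hM : A.valuation (M : K) = 1)
    {r s : ZMod M} (hv : ¬ (r = 0 ∧ s = 0)) : igConst M ζ r s ∈ A := by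
  unfold igConst
  split_ifs with h
  · have hs : s ≠ 0 := fun hs => hv ⟨h, hs⟩
    refine A.add_mem _ _ A.one_mem (A.mul_mem _ _ (ofNat_mem A 12) ?_)
    exact A.mem_of_valuation_le_one _ (igu_val_frac A hζ hM hs).le
  · exact A.one_mem

theorem igu_pow_mem (hζ : ζ ^ M = 1) (k : ℕ) : ζ ^ k ∈ A :=
  A.mem_of_valuation_le_one _ (igu_val_pow A hζ k).le

theorem igTerm_mem (hζ : ζ ^ M = 1) (r s : ZMod M) (n d : ℕ) : igTerm M ζ r s n d ∈ A := by
  unfold igTerm
  refine A.add_mem _ _ ?_ ?_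
  · split_ifs
    · exact A.mul_mem _ _ (natCast_mem A _) (igu_pow_mem A hζ _)
    · exact A.zero_mem
  · split_ifs
    · exact A.mul_mem _ _ (natCast_mem A _) (igu_pow_mem A hζ _)
    · exact A.zero_mem

/-- the coefficients of `wp_v` are `A`-integral (`v ≠ 0`, `M` a unit of `A`). -/
theorem igCoeff_mem (hζ : IsPrimitiveRoot ζ M) (hM : A.valuation (M : K) = 1)
    {r s : ZMod M} (hv : ¬ (r = 0 ∧ s = 0)) (n : ℕ) : igCoeff M ζ r s n ∈ A := by
  unfold igCoeff
  refine add_mem (sub_mem ?_ (mul_mem (ofNat_mem A 24) ?_))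
    (mul_mem (ofNat_mem A 12) (sum_mem fun d _ => igTerm_mem A hζ.pow_eq_one r s n d))
  · split_ifs
    · exact igConst_mem A hζ hM hv
    · exact A.zero_mem
  · split_ifs
    · exact sum_mem fun d _ => natCast_mem A d
    · exact A.zero_mem

end mem

/-! ### the leading coefficients -/

section lead

variable {M : ℕ} [NeZero M] {ζ : K}

theorem ig_natCast_eq_iff {d : ℕ} (hd : d < M) (r : ZMod M) :
    ((d : ℕ) : ZMod M) = r ↔ d = r.val := by
  constructor
  · rintro rfl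
    exact (ZMod.val_natCast_of_lt hd).symm
  · rintro rfl
    exact ZMod.natCast_zmod_val r

theorem ig_val_neg {r : ZMod M} (hr : r ≠ 0) : (-r).val = M - r.val := by
  rw [ZMod.neg_val, if_neg hr]

omit [NeZero M] in
theorem ig_val_pos {r : ZMod M} (hr : r ≠ 0) : 0 < r.val :=
  Nat.pos_of_ne_zero fun h => hr ((ZMod.val_eq_zero r).1 h)

omit [NeZero M] in
theorem igCoeff_zero (r s : ZMod M) : igCoeff M ζ r s 0 = igConst M ζ r s := by
  unfold igCoeff
  simp

/-- the coefficient of `q^n` in `wp_v` for `0 < n ≤ r ≤ M / 2`. -/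
theorem igCoeff_lead {r s : ZMod M} {n : ℕ} (hn : 0 < n) (hnr : n ≤ r.val)
    (hr : 2 * r.val ≤ M) :
    igCoeff M ζ r s n = 12 * (if r.val = n then
      (if 2 * n = M then ζ ^ s.val + ζ ^ (-s).val else ζ ^ s.val) else 0) := by
  have hrM : r.val < M := ZMod.val_lt r
  have hr0 : r ≠ 0 := by
    rintro rfl
    rw [ZMod.val_zero] at hnr
    omega
  have hnM : ¬ M ∣ n := fun h => by
    have := Nat.le_of_dvd hn h
    omega
  have hneg : (-r).val = M - r.val := ig_val_neg hr0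
  unfold igCoeff
  rw [if_neg hn.ne', if_neg (fun h => hnM h.2), mul_zero, sub_zero, zero_add]
  congr 1
  rw [Finset.sum_eq_single n]
  · unfold igTerm
    have e1 : ((n : ℕ) : ZMod M) = r ↔ r.val = n := by
      rw [ig_natCast_eq_iff (by omega) r]
      exact eq_comm
    have e2 : ((n : ℕ) : ZMod M) = -r ↔ (r.val = n ∧ 2 * n = M) := by
      rw [ig_natCast_eq_iff (by omega) (-r), hneg]
      omega
    rw [Nat.div_self hn, mul_one, mul_one, Nat.cast_one, one_mul, one_mul]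
    simp only [e1, e2]
    by_cases h1 : r.val = n
    · by_cases h2 : 2 * n = M
      · simp [h1, h2]
      · simp [h1, h2]
    · simp [h1]
  · intro d hd hdn
    have hdle : d ≤ n := Nat.le_of_dvd hn (Nat.dvd_of_mem_divisors hd)
    have hdlt : d < n := lt_of_le_of_ne hdle hdn
    unfold igTerm
    have e1 : ¬ ((d : ℕ) : ZMod M) = r := by
      rw [ig_natCast_eq_iff (by omega) r]
      omega
    have e2 : ¬ ((d : ℕ) : ZMod M) = -r := by
      rw [ig_natCast_eq_iff (by omega) (-r), hneg]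
      omega
    rw [if_neg e1, if_neg e2, add_zero]
  · intro h
    exact absurd (Nat.mem_divisors_self n hn.ne') h

end lead

/-! ### distinctness -/

section distinct

variable (A : ValuationSubring K) {M : ℕ} [NeZero M] {ζ : K}

/-- distinctness, normalised case `r ≤ r' ≤ M / 2`. -/
theorem igCoeff_distinct_norm (hζ : IsPrimitiveRoot ζ M) (hM : A.valuation (M : K) = 1)
    (h12 : A.valuation (12 : K) = 1)
    {r s r' s' : ZMod M} (hv : ¬ (r = 0 ∧ s = 0)) (hv' : ¬ (r' = 0 ∧ s' = 0))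
    (hr : 2 * r.val ≤ M) (hr' : 2 * r'.val ≤ M) (hle : r.val ≤ r'.val)
    (H : ∀ n, A.valuation (igCoeff M ζ r s n - igCoeff M ζ r' s' n) < 1) :
    (r = r' ∧ s = s') ∨ (r = -r' ∧ s = -s') := by
  have h1 : ζ ^ M = 1 := hζ.pow_eq_one
  by_cases hr0 : r = 0
  · -- the constant terms
    subst hr0
    have hs : s ≠ 0 := fun h => hv ⟨rfl, h⟩
    have H0 := H 0
    rw [igCoeff_zero, igCoeff_zero] at H0
    by_cases hr0' : r' = 0
    · subst hr0'
      have hs' : s' ≠ 0 := fun h => hv' ⟨rfl, h⟩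
      by_cases e1 : s = s'
      · exact Or.inl ⟨rfl, e1⟩
      by_cases e2 : s = -s'
      · exact Or.inr ⟨neg_zero.symm, e2⟩
      exfalso
      have e : igConst M ζ 0 s - igConst M ζ 0 s'
          = 12 * (ζ ^ s.val / (1 - ζ ^ s.val) ^ 2 - ζ ^ s'.val / (1 - ζ ^ s'.val) ^ 2) := by
        unfold igConst
        rw [if_pos rfl, if_pos rfl]
        ring
      rw [e, map_mul, h12, one_mul, igu_val_frac_sub A hζ hM hs hs' e1 e2] at H0
      exact lt_irrefl _ H0
    · exfalso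
      have e : igConst M ζ 0 s - igConst M ζ r' s' = 12 * (ζ ^ s.val / (1 - ζ ^ s.val) ^ 2) := by
        unfold igConst
        rw [if_pos rfl, if_neg hr0']
        ring
      rw [e, map_mul, h12, one_mul, igu_val_frac A hζ hM hs] at H0
      exact lt_irrefl _ H0
  · -- the coefficient of `q ^ r.val`
    have hpos : 0 < r.val := ig_val_pos hr0
    have Hn := H r.val
    rw [igCoeff_lead hpos le_rfl hr, igCoeff_lead hpos hle hr', if_pos rfl] at Hn
    by_cases hrr : r'.val = r.val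
    · have hrr' : r = r' := (ZMod.val_injective M hrr).symm
      rw [if_pos hrr] at Hn
      by_cases h2 : 2 * r.val = M
      · rw [if_pos h2, if_pos h2, ← mul_sub, map_mul, h12, one_mul] at Hn
        by_cases e1 : s = s'
        · exact Or.inl ⟨hrr', e1⟩
        by_cases e2 : s = -s'
        · refine Or.inr ⟨?_, e2⟩
          rw [← hrr']
          apply ZMod.val_injective M
          rw [ig_val_neg hr0]
          omega
        exfalso
        rw [igu_val_trace_sub A hζ hM e1 e2] at Hn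
        exact lt_irrefl _ Hn
      · rw [if_neg h2, if_neg h2, ← mul_sub, map_mul, h12, one_mul] at Hn
        by_cases e1 : s = s'
        · exact Or.inl ⟨hrr', e1⟩
        exfalso
        rw [igu_val_sub A hζ hM e1] at Hn
        exact lt_irrefl _ Hn
    · exfalso
      have h2 : 2 * r.val ≠ M := by omega
      rw [if_neg hrr, mul_zero, sub_zero, map_mul, h12, one_mul, if_neg h2,
        igu_val_pow A h1] at Hn
      exact lt_irrefl _ Hn

theorem ig_exists_norm (r s : ZMod M) :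
    ∃ r₁ s₁ : ZMod M, 2 * r₁.val ≤ M ∧ ((r₁ = r ∧ s₁ = s) ∨ (r₁ = -r ∧ s₁ = -s)) := by
  by_cases h : 2 * r.val ≤ M
  · exact ⟨r, s, h, Or.inl ⟨rfl, rfl⟩⟩
  · refine ⟨-r, -s, ?_, Or.inr ⟨rfl, rfl⟩⟩
    have hr0 : r ≠ 0 := by
      rintro rfl
      simp at h
    rw [ig_val_neg hr0]
    omega

/-- **IG-DIST**: if `6 M` is a unit of `A` and all the coefficients of `wp_v - wp_v'` are in the
maximal ideal of `A` (`v, v' ≠ 0`), then `v = v'` or `v = -v'`. -/
theorem igCoeff_distinct (hζ : IsPrimitiveRoot ζ M) (hM : A.valuation (M : K) = 1)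
    (h12 : A.valuation (12 : K) = 1)
    {r s r' s' : ZMod M} (hv : ¬ (r = 0 ∧ s = 0)) (hv' : ¬ (r' = 0 ∧ s' = 0))
    (H : ∀ n, A.valuation (igCoeff M ζ r s n - igCoeff M ζ r' s' n) < 1) :
    (r = r' ∧ s = s') ∨ (r = -r' ∧ s = -s') := by
  have h1 : ζ ^ M = 1 := hζ.pow_eq_one
  obtain ⟨r₁, s₁, hn₁, h₁⟩ := ig_exists_norm r s
  obtain ⟨r₂, s₂, hn₂, h₂⟩ := ig_exists_norm r' s'
  have e₁ : ∀ n, igCoeff M ζ r₁ s₁ n = igCoeff M ζ r s n := by
    rcases h₁ with ⟨rfl, rfl⟩ | ⟨rfl, rfl⟩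
    · intro n; rfl
    · intro n; exact igCoeff_neg h1 r s n
  have e₂ : ∀ n, igCoeff M ζ r₂ s₂ n = igCoeff M ζ r' s' n := by
    rcases h₂ with ⟨rfl, rfl⟩ | ⟨rfl, rfl⟩
    · intro n; rfl
    · intro n; exact igCoeff_neg h1 r' s' n
  have hv₁ : ¬ (r₁ = 0 ∧ s₁ = 0) := by
    rcases h₁ with ⟨rfl, rfl⟩ | ⟨rfl, rfl⟩
    · exact hv
    · simpa using hv
  have hv₂ : ¬ (r₂ = 0 ∧ s₂ = 0) := by
    rcases h₂ with ⟨rfl, rfl⟩ | ⟨rfl, rfl⟩
    · exact hv'
    · simpa using hv'
  have key : (r₁ = r₂ ∧ s₁ = s₂) ∨ (r₁ = -r₂ ∧ s₁ = -s₂) := by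
    rcases le_total r₁.val r₂.val with hle | hle
    · exact igCoeff_distinct_norm A hζ hM h12 hv₁ hv₂ hn₁ hn₂ hle
        (fun n => by rw [e₁, e₂]; exact H n)
    · have := igCoeff_distinct_norm A hζ hM h12 hv₂ hv₁ hn₂ hn₁ hle
        (fun n => by rw [e₂, e₁, ← Valuation.map_neg, neg_sub]; exact H n)
      rcases this with ⟨a, b⟩ | ⟨a, b⟩
      · exact Or.inl ⟨a.symm, b.symm⟩
      · exact Or.inr ⟨by rw [a, neg_neg], by rw [b, neg_neg]⟩
  rcases h₁ with ⟨rfl, rfl⟩ | ⟨rfl, rfl⟩ <;> rcases h₂ with ⟨rfl, rfl⟩ | ⟨rfl, rfl⟩ <;>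
    rcases key with ⟨a, b⟩ | ⟨a, b⟩
  · exact Or.inl ⟨a, b⟩
  · exact Or.inr ⟨a, b⟩
  · exact Or.inr ⟨a, b⟩
  · exact Or.inl ⟨by simpa using a, by simpa using b⟩
  · exact Or.inr ⟨neg_eq_iff_eq_neg.1 a, neg_eq_iff_eq_neg.1 b⟩
  · exact Or.inl ⟨neg_inj.1 a, neg_inj.1 b⟩
  · exact Or.inl ⟨neg_inj.1 a, neg_inj.1 b⟩
  · exact Or.inr ⟨neg_eq_iff_eq_neg.1 (by simpa using a), neg_eq_iff_eq_neg.1 (by simpa using b)⟩

/-- the series form. -/
theorem igX_distinct (hζ : IsPrimitiveRoot ζ M) (hM : A.valuation (M : K) = 1)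
    (h12 : A.valuation (12 : K) = 1)
    {r s r' s' : ZMod M} (hv : ¬ (r = 0 ∧ s = 0)) (hv' : ¬ (r' = 0 ∧ s' = 0))
    (H : ∀ n, A.valuation (PowerSeries.coeff n (igX M ζ r s - igX M ζ r' s')) < 1) :
    (r = r' ∧ s = s') ∨ (r = -r' ∧ s = -s') :=
  igCoeff_distinct A hζ hM h12 hv hv' fun n => by simpa using H n

end distinct

/-! ### places over a prime `p ≥ 5`, `p ∤ M` -/

section prime

variable (A : ValuationSubring K) {M : ℕ} [NeZero M] {ζ : K}

theorem ig_val_natCast_eq_one {p : ℕ} (hp : p.Prime) (hA : A.valuation (p : K) < 1) {n : ℕ}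
    (hn : ¬ p ∣ n) : A.valuation (n : K) = 1 := by
  have hle : A.valuation (n : K) ≤ 1 := (A.valuation_le_one_iff _).2 (natCast_mem A n)
  rcases lt_or_eq_of_le hle with hlt | heq
  · exfalso
    have hcop : Nat.Coprime p n := (Nat.Prime.coprime_iff_not_dvd hp).mpr hn
    have hcop' : IsCoprime (p : ℤ) (n : ℤ) := Nat.isCoprime_iff_coprime.mpr hcop
    obtain ⟨a, b, hab⟩ := hcop'
    have e1 : ((a : K)) * (p : K) + (b : K) * (n : K) = 1 := by
      have := congrArg (Int.cast : ℤ → K) hab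
      push_cast at this
      exact this
    have ha : A.valuation (a : K) ≤ 1 := (A.valuation_le_one_iff _).2 (intCast_mem A a)
    have hb : A.valuation (b : K) ≤ 1 := (A.valuation_le_one_iff _).2 (intCast_mem A b)
    have h2 : A.valuation ((a : K) * (p : K) + (b : K) * (n : K)) < 1 := by
      apply Valuation.map_add_lt
      · rw [map_mul]
        exact lt_of_le_of_lt (mul_le_of_le_one_left' ha) hA
      · rw [map_mul]
        exact lt_of_le_of_lt (mul_le_of_le_one_left' hb) hlt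
    rw [e1, map_one] at h2
    exact lt_irrefl _ h2
  · exact heq

/-- **IG-DIST** at a place over a prime `p ≥ 5` not dividing `M`. -/
theorem igCoeff_distinct_of_prime {p : ℕ} (hp : p.Prime) (hp5 : 5 ≤ p) (hpM : ¬ p ∣ M)
    (hA : A.valuation (p : K) < 1) (hζ : IsPrimitiveRoot ζ M)
    {r s r' s' : ZMod M} (hv : ¬ (r = 0 ∧ s = 0)) (hv' : ¬ (r' = 0 ∧ s' = 0))
    (H : ∀ n, A.valuation (igCoeff M ζ r s n - igCoeff M ζ r' s' n) < 1) :
    (r = r' ∧ s = s') ∨ (r = -r' ∧ s = -s') := by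
  have hM : A.valuation (M : K) = 1 := ig_val_natCast_eq_one A hp hA hpM
  have h12 : A.valuation (12 : K) = 1 := by
    have h : ¬ p ∣ 12 := by
      intro h
      have h2 : p ∣ 2 ^ 2 * 3 := by simpa using h
      rcases (Nat.Prime.dvd_mul hp).1 h2 with h4 | h3
      · have := (Nat.prime_dvd_prime_iff_eq hp Nat.prime_two).1 (hp.dvd_of_dvd_pow h4)
        omega
      · have := (Nat.prime_dvd_prime_iff_eq hp Nat.prime_three).1 h3
        omega
    have := ig_val_natCast_eq_one A hp hA h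
    simpa using this
  exact igCoeff_distinct A hζ hM h12 hv hv' H

theorem igCoeff_mem_of_prime {p : ℕ} (hp : p.Prime) (hpM : ¬ p ∣ M)
    (hA : A.valuation (p : K) < 1) (hζ : IsPrimitiveRoot ζ M)
    {r s : ZMod M} (hv : ¬ (r = 0 ∧ s = 0)) (n : ℕ) : igCoeff M ζ r s n ∈ A :=
  igCoeff_mem A hζ (ig_val_natCast_eq_one A hp hA hpM) hv n

end prime

end Fermat.Agent.S48WG
end
end MergeWrap_S48_W_G_Red_Igusa_Dist

section MergeWrap_S48_W_G_Red_Igusa_DistF -- from S48/W/G/Red/Igusa/DistF.lean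

set_option autoImplicit false

noncomputable section

namespace Fermat.Agent.S48WG

open ModularCurve HahnSeries Fermat.Agent.S48W Fermat.Agent.GaussInt

/-! ### Gauss's lemma for series -/

section gauss

variable {K : Type*} [Field K] (A : ValuationSubring K)

theorem ig_residue_eq_zero_iff (a : A) :
    IsLocalRing.residue A a = 0 ↔ A.valuation (a : K) < 1 := by
  rw [IsLocalRing.residue_eq_zero_iff, A.valuation_lt_one_iff]

theorem ig_red_eq_zero_iff (Y : LaurentSeries A) :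
    red A Y = 0 ↔ ∀ n, A.valuation ((Y.coeff n : A) : K) < 1 := by
  constructor
  · intro h n
    rw [← ig_residue_eq_zero_iff, ← red_coeff, h]
    rfl
  · intro h
    ext n
    rw [red_coeff, (ig_residue_eq_zero_iff A _).2 (h n)]
    rfl

/-- **Gauss's lemma**: the series `≡ 0` modulo the maximal ideal form a prime ideal of the series
with coefficients in `A`. -/
theorem ig_gauss {E D : LaurentSeries K} (hE : IsIntK A E) (hD : IsIntK A D)
    (hE1 : ∃ n, A.valuation (E.coeff n) = 1)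
    (H : ∀ n, A.valuation ((E * D).coeff n) < 1) : ∀ n, A.valuation (D.coeff n) < 1 := by
  have hE' : ∀ n, E.coeff n ∈ A := hE
  have hD' : ∀ n, D.coeff n ∈ A := hD
  have hmul : emb A (liftA A E hE' * liftA A D hD') = E * D := by
    rw [map_mul, emb_liftA, emb_liftA]
  have h0 : red A (liftA A E hE' * liftA A D hD') = 0 := by
    rw [ig_red_eq_zero_iff]
    intro n
    rw [← emb_coeff, hmul]
    exact H n
  rw [map_mul] at h0
  have hEne : red A (liftA A E hE') ≠ 0 := by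
    intro h
    obtain ⟨n, hn⟩ := hE1
    have := (ig_red_eq_zero_iff A _).1 h n
    rw [liftA_coeff, hn] at this
    exact lt_irrefl _ this
  have hD0 : red A (liftA A D hD') = 0 := (mul_eq_zero.1 h0).resolve_left hEne
  intro n
  have := (ig_red_eq_zero_iff A _).1 hD0 n
  rwa [liftA_coeff] at this

end gauss

/-! ### the conjugates of the Fricke functions -/

section fricke

variable {K : Type*} [Field K] [Algebra ℚ K]

variable (K) in
/-- `(E₄ E₆ / Δ)(q^M)` over `K`. -/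
def igE (M : ℕ) [NeZero M] : LaurentSeries K := coeffEmb K (qExpand ℚ M eisQuot)

/-- the `q`-expansion of the conjugate of `fricke M 1` attached to `v = (r, s)`. -/
def igF (M : ℕ) [NeZero M] (ζ : K) (r s : ZMod M) : LaurentSeries K :=
  igE K M * HahnSeries.ofPowerSeries ℤ K (igX M ζ r s)

variable {M : ℕ} [NeZero M] {ζ : K}

theorem igF_zero_right {a : ZMod M} (ha : a ≠ 0) :
    igF M ζ a 0 = coeffEmb K (fricke M a) := by
  unfold igF igE fricke
  rw [map_mul, igX_zero_right M ζ ha]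
  congr 1
  unfold coeffEmb
  rw [coeffMap_ofPowerSeries, ← RingHom.comp_apply (PowerSeries.map (algebraMap ℚ K))
      (PowerSeries.map (Int.castRingHom ℚ)), ← PowerSeries.map_comp,
    RingHom.ext_int ((algebraMap ℚ K).comp (Int.castRingHom ℚ)) (Int.castRingHom K)]

theorem igF_neg (hζ : ζ ^ M = 1) (r s : ZMod M) : igF M ζ (-r) (-s) = igF M ζ r s := by
  unfold igF
  rw [igX_neg hζ]

theorem eisQuot_coeff_neg_one : eisQuot.coeff (-1) = 1 := by
  unfold eisQuot
  have h := HahnSeries.coeff_single_mul_add (r := (1 : ℚ))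
    (x := HahnSeries.ofPowerSeries ℤ ℚ
      ((eisenstein4 * eis6 * dedekindEtaUnitInv).map (Int.castRingHom ℚ))) (a := (0 : ℤ))
    (b := (-1 : ℤ))
  rw [zero_add] at h
  rw [h, one_mul]
  have h2 := HahnSeries.ofPowerSeries_apply_coeff (Γ := ℤ)
    ((eisenstein4 * eis6 * dedekindEtaUnitInv).map (Int.castRingHom ℚ)) 0
  rw [Nat.cast_zero] at h2
  have h6 : PowerSeries.constantCoeff eis6 = 1 := by
    rw [← PowerSeries.coeff_zero_eq_constantCoeff]
    simp [eis6]
  have h7 : PowerSeries.constantCoeff (eisenstein4 * eis6 * dedekindEtaUnitInv) = 1 := by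
    rw [map_mul, map_mul, constantCoeff_eisenstein4, constantCoeff_dedekindEtaUnitInv, h6]
    simp
  rw [h2, PowerSeries.coeff_map, PowerSeries.coeff_zero_eq_constantCoeff, h7]
  simp

theorem igE_coeff_neg : (igE K M).coeff (-(M : ℤ)) = 1 := by
  unfold igE
  rw [coeffEmb_coeff]
  have h : (-(M : ℤ)) = (M : ℤ) * (-1) := by ring
  rw [h, qExpand_coeff_mul, eisQuot_coeff_neg_one, map_one]

variable (A : ValuationSubring K)

theorem igE_isIntK : IsIntK A (igE K M) := fun n =>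
  isIntQ_qExpand (A := A) M (isIntQ_eisQuot A) n

omit [Algebra ℚ K] in
theorem igX_isIntK (hζ : IsPrimitiveRoot ζ M) (hM : A.valuation (M : K) = 1)
    {r s : ZMod M} (hv : ¬ (r = 0 ∧ s = 0)) :
    IsIntK A (HahnSeries.ofPowerSeries ℤ K (igX M ζ r s)) := by
  intro n
  have h : (HahnSeries.ofPowerSeries ℤ K (igX M ζ r s)).coeff n
      = if n < 0 then 0 else PowerSeries.coeff n.natAbs (igX M ζ r s) :=
    PowerSeries.coeff_coe (igX M ζ r s) n
  rw [h]
  split_ifs
  · exact A.zero_mem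
  · rw [coeff_igX]
    exact igCoeff_mem A hζ hM hv _

/-- the conjugates of the Fricke functions have `A`-integral expansions. -/
theorem igF_isIntK (hζ : IsPrimitiveRoot ζ M) (hM : A.valuation (M : K) = 1)
    {r s : ZMod M} (hv : ¬ (r = 0 ∧ s = 0)) : IsIntK A (igF M ζ r s) :=
  (igE_isIntK A).mul (igX_isIntK A hζ hM hv)

/-- **IG-DIST** for the conjugates of the Fricke functions: if `6 M` is a unit of `A` and
`igF v ≡ igF v'` modulo the maximal ideal of `A` (`v, v' ≠ 0`), then `v = v'` or `v = -v'`. -/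
theorem igF_distinct (hζ : IsPrimitiveRoot ζ M) (hM : A.valuation (M : K) = 1)
    (h12 : A.valuation (12 : K) = 1)
    {r s r' s' : ZMod M} (hv : ¬ (r = 0 ∧ s = 0)) (hv' : ¬ (r' = 0 ∧ s' = 0))
    (H : ∀ n, A.valuation ((igF M ζ r s - igF M ζ r' s').coeff n) < 1) :
    (r = r' ∧ s = s') ∨ (r = -r' ∧ s = -s') := by
  have hD : IsIntK A (HahnSeries.ofPowerSeries ℤ K (igX M ζ r s)
      - HahnSeries.ofPowerSeries ℤ K (igX M ζ r' s')) :=
    (igX_isIntK A hζ hM hv).sub (igX_isIntK A hζ hM hv')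
  have e : igF M ζ r s - igF M ζ r' s' = igE K M * (HahnSeries.ofPowerSeries ℤ K (igX M ζ r s)
      - HahnSeries.ofPowerSeries ℤ K (igX M ζ r' s')) := by
    unfold igF
    ring
  rw [e] at H
  have hG := ig_gauss A (igE_isIntK A) hD
    ⟨-(M : ℤ), by rw [igE_coeff_neg, map_one]⟩ H
  refine igCoeff_distinct A hζ hM h12 hv hv' fun n => ?_
  have h := hG (n : ℤ)
  rw [HahnSeries.coeff_sub, HahnSeries.ofPowerSeries_apply_coeff,
    HahnSeries.ofPowerSeries_apply_coeff, coeff_igX, coeff_igX] at h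
  exact h

/-- **IG-DIST** at a place over a prime `p ≥ 5` not dividing `M`. -/
theorem igF_distinct_of_prime {p : ℕ} (hp : p.Prime) (hp5 : 5 ≤ p) (hpM : ¬ p ∣ M)
    (hA : A.valuation (p : K) < 1) (hζ : IsPrimitiveRoot ζ M)
    {r s r' s' : ZMod M} (hv : ¬ (r = 0 ∧ s = 0)) (hv' : ¬ (r' = 0 ∧ s' = 0))
    (H : ∀ n, A.valuation ((igF M ζ r s - igF M ζ r' s').coeff n) < 1) :
    (r = r' ∧ s = s') ∨ (r = -r' ∧ s = -s') := by
  have hM : A.valuation (M : K) = 1 := ig_val_natCast_eq_one A hp hA hpM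
  have h12 : A.valuation (12 : K) = 1 := by
    have h : ¬ p ∣ 12 := by
      intro h
      have h2 : p ∣ 2 ^ 2 * 3 := by simpa using h
      rcases (Nat.Prime.dvd_mul hp).1 h2 with h4 | h3
      · have := (Nat.prime_dvd_prime_iff_eq hp Nat.prime_two).1 (hp.dvd_of_dvd_pow h4)
        omega
      · have := (Nat.prime_dvd_prime_iff_eq hp Nat.prime_three).1 h3
        omega
    have := ig_val_natCast_eq_one A hp hA h
    simpa using this
  exact igF_distinct A hζ hM h12 hv hv' H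

theorem igF_isIntK_of_prime {p : ℕ} (hp : p.Prime) (hpM : ¬ p ∣ M)
    (hA : A.valuation (p : K) < 1) (hζ : IsPrimitiveRoot ζ M)
    {r s : ZMod M} (hv : ¬ (r = 0 ∧ s = 0)) : IsIntK A (igF M ζ r s) :=
  igF_isIntK A hζ (ig_val_natCast_eq_one A hp hA hpM) hv

end fricke

end Fermat.Agent.S48WG
end
end MergeWrap_S48_W_G_Red_Igusa_DistF
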