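import Mathlib
import Fermat.Agent.MUL.Orig.S48.W.G.Red.Igusa.Defs
import Fermat.Agent.MUL.S48.G1.ThetaDone

section MergeWrap_S48_W_G_Red_Igusa_Transport -- from S48/W/G/Red/Igusa/Transport.lean

set_option autoImplicit false

noncomputable section

namespace Fermat.Agent.S48WG

variable {Ω : Type*} [Field Ω]

/-- two fields with the same image in `Ω` are isomorphic, compatibly with the embeddings. -/
theorem ig_exists_equiv {L₁ L₂ : Type*} [Field L₁] [Field L₂] (f₁ : L₁ →+* Ω) (f₂ : L₂ →+* Ω)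
    (h : Set.range f₁ = Set.range f₂) : ∃ e : L₁ ≃+* L₂, ∀ x, f₂ (e x) = f₁ x := by
  have hr : f₁.range = f₂.range := by
    apply SetLike.coe_injective
    rw [RingHom.coe_range, RingHom.coe_range]
    exact h
  let e₁ : L₁ ≃+* f₁.range := RingEquiv.ofBijective f₁.rangeRestrict
    ⟨fun a b hab => f₁.injective (congrArg Subtype.val hab), f₁.rangeRestrict_surjective⟩
  let e₂ : L₂ ≃+* f₂.range := RingEquiv.ofBijective f₂.rangeRestrict
    ⟨fun a b hab => f₂.injective (congrArg Subtype.val hab), f₂.rangeRestrict_surjective⟩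
  let c : f₁.range ≃+* f₂.range := RingEquiv.subringCongr hr
  refine ⟨(e₁.trans c).trans e₂.symm, fun x => ?_⟩
  have h1 : e₂ (((e₁.trans c).trans e₂.symm) x) = c (e₁ x) := by
    simp only [RingEquiv.trans_apply, RingEquiv.apply_symm_apply]
  have h2 := congrArg Subtype.val h1
  exact h2

/-- two extensions with the same images in `Ω` are isomorphic. -/
theorem ig_transport {K₁ L₁ K₂ L₂ : Type*} [Field K₁] [Field L₁] [Field K₂] [Field L₂]
    [Algebra K₁ L₁] [Algebra K₂ L₂] (f₁ : L₁ →+* Ω) (f₂ : L₂ →+* Ω)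
    (hK : Set.range (f₁.comp (algebraMap K₁ L₁)) = Set.range (f₂.comp (algebraMap K₂ L₂)))
    (hL : Set.range f₁ = Set.range f₂) :
    ∃ (e₁ : K₁ ≃+* K₂) (e₂ : L₁ ≃+* L₂),
      (algebraMap K₂ L₂).comp (e₁ : K₁ →+* K₂) = (e₂ : L₁ →+* L₂).comp (algebraMap K₁ L₁) := by
  obtain ⟨e₁, he₁⟩ := ig_exists_equiv _ _ hK
  obtain ⟨e₂, he₂⟩ := ig_exists_equiv _ _ hL
  refine ⟨e₁, e₂, RingHom.ext fun a => ?_⟩
  apply f₂.injective
  have h1 := he₁ a
  have h2 := he₂ (algebraMap K₁ L₁ a)
  simp only [RingHom.comp_apply, RingHom.coe_coe] at h1 h2 ⊢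
  rw [h1, h2]

theorem ig_finrank_eq {K₁ L₁ K₂ L₂ : Type*} [Field K₁] [Field L₁] [Field K₂] [Field L₂]
    [Algebra K₁ L₁] [Algebra K₂ L₂] (f₁ : L₁ →+* Ω) (f₂ : L₂ →+* Ω)
    (hK : Set.range (f₁.comp (algebraMap K₁ L₁)) = Set.range (f₂.comp (algebraMap K₂ L₂)))
    (hL : Set.range f₁ = Set.range f₂) :
    Module.finrank K₁ L₁ = Module.finrank K₂ L₂ := by
  obtain ⟨e₁, e₂, he⟩ := ig_transport f₁ f₂ hK hL
  exact Algebra.finrank_eq_of_equiv_equiv e₁ e₂ he

theorem ig_isSeparable_iff {K₁ L₁ K₂ L₂ : Type*} [Field K₁] [Field L₁] [Field K₂] [Field L₂]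
    [Algebra K₁ L₁] [Algebra K₂ L₂] (f₁ : L₁ →+* Ω) (f₂ : L₂ →+* Ω)
    (hK : Set.range (f₁.comp (algebraMap K₁ L₁)) = Set.range (f₂.comp (algebraMap K₂ L₂)))
    (hL : Set.range f₁ = Set.range f₂) :
    Algebra.IsSeparable K₁ L₁ ↔ Algebra.IsSeparable K₂ L₂ := by
  obtain ⟨e₁, e₂, he⟩ := ig_transport f₁ f₂ hK hL
  exact Algebra.IsSeparable.iff_of_equiv_equiv e₁ e₂ he

theorem ig_finiteDimensional_of {K₁ L₁ K₂ L₂ : Type*} [Field K₁] [Field L₁] [Field K₂]
    [Field L₂] [Algebra K₁ L₁] [Algebra K₂ L₂] (f₁ : L₁ →+* Ω) (f₂ : L₂ →+* Ω)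
    (hK : Set.range (f₁.comp (algebraMap K₁ L₁)) = Set.range (f₂.comp (algebraMap K₂ L₂)))
    (hL : Set.range f₁ = Set.range f₂) (h : FiniteDimensional K₁ L₁) :
    FiniteDimensional K₂ L₂ := by
  obtain ⟨e₁, e₂, he⟩ := ig_transport f₁ f₂ hK hL
  exact Module.Finite.of_equiv_equiv e₁ e₂ he

theorem ig_finiteDimensional_iff {K₁ L₁ K₂ L₂ : Type*} [Field K₁] [Field L₁] [Field K₂]
    [Field L₂] [Algebra K₁ L₁] [Algebra K₂ L₂] (f₁ : L₁ →+* Ω) (f₂ : L₂ →+* Ω)
    (hK : Set.range (f₁.comp (algebraMap K₁ L₁)) = Set.range (f₂.comp (algebraMap K₂ L₂)))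
    (hL : Set.range f₁ = Set.range f₂) :
    FiniteDimensional K₁ L₁ ↔ FiniteDimensional K₂ L₂ :=
  ⟨ig_finiteDimensional_of f₁ f₂ hK hL, ig_finiteDimensional_of f₂ f₁ hK.symm hL.symm⟩

end Fermat.Agent.S48WG
end
end MergeWrap_S48_W_G_Red_Igusa_Transport

section MergeWrap_S48_W_G_Red_Igusa_Bridge -- from S48/W/G/Red/Igusa/Bridge.lean

set_option autoImplicit false
set_option linter.unusedSectionVars false

noncomputable section

namespace Fermat.Agent.S48WG

/-! ### images of fraction fields and of adjoined fields -/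

/-- the image of a fraction field is the subfield generated by the image of the ring. -/
theorem ig_range_of_isFractionRing {S F Ω : Type*} [CommRing S] [Field F] [Field Ω]
    [Algebra S F] [IsFractionRing S F] (θ : F →+* Ω) :
    Set.range θ = ↑(Subfield.closure (Set.range (θ.comp (algebraMap S F)))) := by
  ext z
  constructor
  · rintro ⟨x, rfl⟩
    obtain ⟨a, b, -, rfl⟩ := IsFractionRing.div_surjective S x
    rw [map_div₀]
    exact div_mem (Subfield.subset_closure ⟨a, rfl⟩) (Subfield.subset_closure ⟨b, rfl⟩)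
  · intro hz
    have hle : Subfield.closure (Set.range (θ.comp (algebraMap S F))) ≤ θ.fieldRange := by
      rw [Subfield.closure_le]
      rintro _ ⟨a, rfl⟩
      exact ⟨algebraMap S F a, rfl⟩
    exact hle hz

/-- the image of an adjoined field. -/
theorem ig_range_adjoin {F L Ω : Type*} [Field F] [Field L] [Field Ω] [Algebra F L]
    (ψ : L →+* Ω) (S : Set L) :
    Set.range (ψ.comp (algebraMap ↥(IntermediateField.adjoin F S) L)) =
      ↑(Subfield.closure (Set.range (ψ.comp (algebraMap F L)) ∪ ψ '' S)) := by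
  have h1 : Set.range (ψ.comp (algebraMap ↥(IntermediateField.adjoin F S) L)) =
      ψ '' (↑(IntermediateField.adjoin F S).toSubfield : Set L) := by
    ext z
    constructor
    · rintro ⟨x, rfl⟩
      exact ⟨x.1, x.2, rfl⟩
    · rintro ⟨x, hx, rfl⟩
      exact ⟨⟨x, hx⟩, rfl⟩
  rw [h1, IntermediateField.adjoin_toSubfield, ← Subfield.coe_map, RingHom.map_field_closure,
    Set.image_union]
  congr 3
  ext z
  constructor
  · rintro ⟨_, ⟨a, rfl⟩, rfl⟩
    exact ⟨a, rfl⟩
  · rintro ⟨a, rfl⟩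
    exact ⟨_, ⟨a, rfl⟩, rfl⟩

/-- the same inside `Ω`. -/
theorem ig_range_adjoin_self {F Ω : Type*} [Field F] [Field Ω] [Algebra F Ω] (S : Set Ω) :
    Set.range (algebraMap ↥(IntermediateField.adjoin F S) Ω) =
      ↑(Subfield.closure (Set.range (algebraMap F Ω) ∪ S)) := by
  have h := ig_range_adjoin (F := F) (RingHom.id Ω) S
  rw [RingHom.id_comp, RingHom.id_comp] at h
  rw [h]
  have h1 : (⇑(RingHom.id Ω)) '' S = S := by
    ext z
    simp
  rw [h1]

/-! ### the bridge -/

section Bridge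

variable {A₀ B : Type} [CommRing A₀] [CommRing B] [Algebra A₀ B] {Ω : Type} [Field Ω]
  (ρ : B →+* Ω) (P : Ideal A₀) (Q : Ideal B) [Q.IsPrime] [Q.LiesOver P]
  (K L : Type) [Field K] [Field L] [Algebra (A₀ ⧸ P) K] [Algebra (B ⧸ Q) L]
  [Algebra (A₀ ⧸ P) L] [IsScalarTower (A₀ ⧸ P) (B ⧸ Q) L] [Algebra K L]
  [IsScalarTower (A₀ ⧸ P) K L] [IsFractionRing (A₀ ⧸ P) K] [IsFractionRing (B ⧸ Q) L]
  (hQ : RingHom.ker ρ = Q)

/-- the map `B / Q → Ω` induced by `ρ`. -/
def igQuot : B ⧸ Q →+* Ω :=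
  Ideal.Quotient.lift Q ρ (fun b hb => by rw [← hQ] at hb; exact hb)

theorem igQuot_mk (b : B) : igQuot ρ Q hQ (Ideal.Quotient.mk Q b) = ρ b := rfl

theorem igQuot_injective : Function.Injective (igQuot ρ Q hQ) := by
  rw [injective_iff_map_eq_zero]
  intro x hx
  obtain ⟨b, rfl⟩ := Ideal.Quotient.mk_surjective x
  rw [igQuot_mk] at hx
  rw [Ideal.Quotient.eq_zero_iff_mem, ← hQ]
  exact hx

/-- the embedding of `L = Frac (B / Q)` into `Ω`. -/
def igLift : L →+* Ω :=
  IsFractionRing.lift (igQuot_injective ρ Q hQ)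

theorem igLift_mk (b : B) :
    igLift ρ Q L hQ (algebraMap (B ⧸ Q) L (Ideal.Quotient.mk Q b)) = ρ b := by
  unfold igLift
  rw [IsFractionRing.lift_algebraMap]
  rfl

theorem igLift_base (a : A₀) :
    igLift ρ Q L hQ (algebraMap K L (algebraMap (A₀ ⧸ P) K (Ideal.Quotient.mk P a))) =
      ρ (algebraMap A₀ B a) := by
  rw [← IsScalarTower.algebraMap_apply (A₀ ⧸ P) K L,
    IsScalarTower.algebraMap_apply (A₀ ⧸ P) (B ⧸ Q) L]
  exact igLift_mk ρ Q L hQ (algebraMap A₀ B a)

include P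

/-- the image of `K = Frac (A₀ / P)` in `Ω` is the subfield generated by `ρ (A₀)`. -/
theorem ig_bridge_base :
    Set.range ((igLift ρ Q L hQ).comp (algebraMap K L)) =
      ↑(Subfield.closure (Set.range (ρ.comp (algebraMap A₀ B)))) := by
  rw [ig_range_of_isFractionRing (S := A₀ ⧸ P)]
  congr 2
  ext z
  constructor
  · rintro ⟨x, rfl⟩
    obtain ⟨a, rfl⟩ := Ideal.Quotient.mk_surjective x
    exact ⟨a, (igLift_base ρ P Q K L hQ a).symm⟩
  · rintro ⟨a, rfl⟩
    exact ⟨Ideal.Quotient.mk _ a, igLift_base ρ P Q K L hQ a⟩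

omit P in
omit [Q.LiesOver P] [Algebra (A₀ ⧸ P) K] [Algebra (A₀ ⧸ P) L] [IsScalarTower (A₀ ⧸ P) (B ⧸ Q) L]
  [IsScalarTower (A₀ ⧸ P) K L] [IsFractionRing (A₀ ⧸ P) K] in
/-- the image of the reductions of a family. -/
theorem ig_image_redGen {ι : Type} (y : ι → B) :
    (igLift ρ Q L hQ) '' (redGen Q L y) = Set.range fun i => ρ (y i) := by
  ext z
  constructor
  · rintro ⟨_, ⟨i, rfl⟩, rfl⟩
    exact ⟨i, (igLift_mk ρ Q L hQ (y i)).symm⟩
  · rintro ⟨i, rfl⟩
    exact ⟨_, ⟨i, rfl⟩, igLift_mk ρ Q L hQ (y i)⟩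

/-- the image of `K(ȳ)` in `Ω`. -/
theorem ig_bridge_adjoin {ι : Type} (y : ι → B) :
    Set.range ((igLift ρ Q L hQ).comp
      (algebraMap ↥(IntermediateField.adjoin K (redGen Q L y)) L)) =
      ↑(Subfield.closure ((↑(Subfield.closure (Set.range (ρ.comp (algebraMap A₀ B)))) : Set Ω) ∪
        Set.range fun i => ρ (y i))) := by
  rw [ig_range_adjoin, ig_bridge_base ρ P Q K L hQ, ig_image_redGen]

section Main

variable {ι : Type} (y : ι → B) (F : Type) [Field F] [Algebra F Ω]
  (hF : Set.range (algebraMap F Ω) =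
    ↑(Subfield.closure (Set.range (ρ.comp (algebraMap A₀ B)))))

include hF hQ

theorem ig_bridge_hK :
    Set.range (((igLift ρ Q L hQ).comp
        (algebraMap ↥(IntermediateField.adjoin K (redGen Q L y)) L)).comp
      (algebraMap K ↥(IntermediateField.adjoin K (redGen Q L y)))) =
    Set.range ((algebraMap ↥(IntermediateField.adjoin F (Set.range fun i => ρ (y i))) Ω).comp
      (algebraMap F ↥(IntermediateField.adjoin F (Set.range fun i => ρ (y i))))) := by
  have h1 : ((igLift ρ Q L hQ).comp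
        (algebraMap ↥(IntermediateField.adjoin K (redGen Q L y)) L)).comp
      (algebraMap K ↥(IntermediateField.adjoin K (redGen Q L y))) =
      (igLift ρ Q L hQ).comp (algebraMap K L) := rfl
  have h2 : (algebraMap ↥(IntermediateField.adjoin F (Set.range fun i => ρ (y i))) Ω).comp
      (algebraMap F ↥(IntermediateField.adjoin F (Set.range fun i => ρ (y i)))) =
      algebraMap F Ω := rfl
  rw [h1, h2, ig_bridge_base ρ P Q K L hQ, hF]

theorem ig_bridge_hL :
    Set.range ((igLift ρ Q L hQ).comp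
      (algebraMap ↥(IntermediateField.adjoin K (redGen Q L y)) L)) =
    Set.range (algebraMap ↥(IntermediateField.adjoin F (Set.range fun i => ρ (y i))) Ω) := by
  rw [ig_bridge_adjoin ρ P Q K L hQ, ig_range_adjoin_self, hF]

/-- **the bridge, degrees**. -/
theorem ig_bridge_finrank :
    Module.finrank K ↥(IntermediateField.adjoin K (redGen Q L y)) =
    Module.finrank F ↥(IntermediateField.adjoin F (Set.range fun i => ρ (y i))) :=
  ig_finrank_eq _ _ (ig_bridge_hK ρ P Q K L hQ y F hF) (ig_bridge_hL ρ P Q K L hQ y F hF)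

/-- **the bridge, separability**. -/
theorem ig_bridge_isSeparable_iff :
    Algebra.IsSeparable K ↥(IntermediateField.adjoin K (redGen Q L y)) ↔
    Algebra.IsSeparable F ↥(IntermediateField.adjoin F (Set.range fun i => ρ (y i))) :=
  ig_isSeparable_iff _ _ (ig_bridge_hK ρ P Q K L hQ y F hF) (ig_bridge_hL ρ P Q K L hQ y F hF)

/-- **the bridge, finiteness**. -/
theorem ig_bridge_finiteDimensional_iff :
    FiniteDimensional K ↥(IntermediateField.adjoin K (redGen Q L y)) ↔
    FiniteDimensional F ↥(IntermediateField.adjoin F (Set.range fun i => ρ (y i))) :=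
  ig_finiteDimensional_iff _ _ (ig_bridge_hK ρ P Q K L hQ y F hF)
    (ig_bridge_hL ρ P Q K L hQ y F hF)

end Main

end Bridge

end Fermat.Agent.S48WG
end
end MergeWrap_S48_W_G_Red_Igusa_Bridge

section MergeWrap_S48_W_G_Red_Igusa_StabTop -- from S48/W/G/Red/Igusa/StabTop.lean

set_option autoImplicit false
set_option linter.style.haveILetI false

namespace Fermat.Agent.S48WG

open Polynomial
open scoped Pointwise

section

variable {B : Type} [CommRing B] {G : Type} [Group G] [MulSemiringAction G B]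

/-- An element of the stabiliser of `Q` maps `Q` into `Q`. -/
theorem igst_smul_mem {Q : Ideal B} {g : G} (hg : g ∈ MulAction.stabilizer G Q) {b : B}
    (hb : b ∈ Q) : g • b ∈ Q := by
  have h1 : g • b ∈ g • Q := Ideal.smul_mem_pointwise_smul g b Q hb
  rwa [MulAction.mem_stabilizer_iff.1 hg] at h1

/-- For a finite group: an element which maps `Q` into `Q` is in the stabiliser of `Q`. -/
theorem igst_mem_stabilizer [Finite G] {Q : Ideal B} {g : G} (hg : ∀ b ∈ Q, g • b ∈ Q) :
    g ∈ MulAction.stabilizer G Q := by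
  rw [MulAction.mem_stabilizer_iff]
  have hpow : ∀ n : ℕ, ∀ b ∈ Q, g ^ n • b ∈ Q := by
    intro n
    induction n with
    | zero => intro b hb; simpa using hb
    | succ n ih => intro b hb; rw [pow_succ, mul_smul]; exact ih _ (hg b hb)
  have hinv : ∀ b ∈ Q, g⁻¹ • b ∈ Q := by
    intro b hb
    have h1 : g⁻¹ = g ^ (orderOf g - 1) := by
      rw [eq_comm, ← mul_eq_one_iff_eq_inv, ← pow_succ,
        Nat.sub_add_cancel (orderOf_pos g), pow_orderOf_eq_one]
    rw [h1]
    exact hpow _ b hb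
  refine le_antisymm ?_ ?_
  · intro b hb
    rw [Ideal.mem_pointwise_smul_iff_inv_smul_mem] at hb
    have := hg _ hb
    rwa [smul_inv_smul] at this
  · intro b hb
    rw [Ideal.mem_pointwise_smul_iff_inv_smul_mem]
    exact hinv b hb

end

/-- **IG-ALG-1**: the decomposition group of `Q` is everything. -/
theorem stabTop : StabTopStatement := by
  intro A₀ B _ _ _ G _ _ _ _ _ P Q _ _ K L _ _ _ _ _ _ _ _ _ _ t ι _ y H ht hnc hdr hsep hdeg hconj
  classical
  haveI : P.IsPrime := Ideal.over_def Q P ▸ Ideal.IsPrime.under A₀ Q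
  haveI hnormal : Normal K L := Ideal.IsFractionRing.normal G P Q K L
  set E := IntermediateField.adjoin K (redGen Q L y) with hE
  -- `E / K` is finite
  have hidx : 0 < H.index := Nat.pos_of_ne_zero Subgroup.index_ne_zero_of_finite
  haveI hfin : FiniteDimensional K E := Module.finite_of_finrank_pos (lt_of_lt_of_le hidx hdeg)
  -- the number of embeddings
  have hcard : Nat.card (E →ₐ[K] L) = Module.finrank K E := by
    refine AlgHom.natCard_of_splits K E L fun x => ?_
    rw [IntermediateField.minpoly_eq]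
    exact Normal.splits hnormal (x : L)
  -- every embedding comes from the stabiliser
  have hemb : ∀ φ : E →ₐ[K] L, ∃ σ : MulAction.stabilizer G Q, ∀ i,
      φ ⟨algebraMap (B ⧸ Q) L (Ideal.Quotient.mk Q (y i)),
          IntermediateField.subset_adjoin K _ ⟨i, rfl⟩⟩ =
        algebraMap (B ⧸ Q) L (Ideal.Quotient.mk Q ((σ : G) • y i)) := by
    intro φ
    obtain ⟨ψ, hψ⟩ := IntermediateField.exists_algHom_of_splits
      (fun s : L => ⟨Normal.isIntegral hnormal s, Normal.splits hnormal s⟩) φ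
    obtain ⟨σ, hσ⟩ := IsFractionRing.stabilizerHom_surjective G P Q K L
      (AlgEquiv.ofBijective ψ (AlgHom.normal_bijective K L L ψ))
    refine ⟨σ, fun i => ?_⟩
    rw [← IsFractionRing.stabilizerHom_apply_apply_mk G P Q K L σ (y i), hσ, ← hψ]
    rfl
  choose s hs using hemb
  -- the map to `G ⧸ H`
  let f : (E →ₐ[K] L) → G ⧸ H := fun φ => ((s φ : G) : G ⧸ H)
  have hf : Function.Injective f := by
    intro φ ψ h
    have h1 : ((s φ : G))⁻¹ * (s ψ : G) ∈ H := QuotientGroup.eq.1 h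
    refine IntermediateField.adjoin_algHom_ext K ?_
    rintro x ⟨i, rfl⟩
    have h2 : (s ψ : G) • y i = (s φ : G) • y i := by
      have := hdr.1 _ h1 i
      rw [mul_smul, inv_smul_eq_iff] at this
      exact this
    exact (hs φ i).trans ((congrArg (fun b => algebraMap (B ⧸ Q) L (Ideal.Quotient.mk Q b))
      h2.symm).trans (hs ψ i).symm)
  haveI : Finite (E →ₐ[K] L) := Nat.finite_of_card_ne_zero (by
    rw [hcard]; exact (lt_of_lt_of_le hidx hdeg).ne')
  have hsurj : Function.Surjective f := by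
    have hle : Nat.card (G ⧸ H) ≤ Nat.card (E →ₐ[K] L) := by
      rw [hcard]
      exact hdeg
    exact (Function.Injective.bijective_of_nat_card_le hf hle).2
  -- the conjugates of `t`
  have ht' : t ∈ MulAction.stabilizer G Q := igst_mem_stabilizer ht
  have hconjt : ∀ g : G, g * t * g⁻¹ ∈ MulAction.stabilizer G Q := by
    intro g
    obtain ⟨φ, hφ⟩ := hsurj (g : G ⧸ H)
    have h1 : ((s φ : G))⁻¹ * g ∈ H := QuotientGroup.eq.1 hφ
    obtain ⟨n, hn⟩ := hconj _ h1
    refine igst_mem_stabilizer fun b hb => ?_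
    have h2 : g * t * g⁻¹ =
        (s φ : G) * ((((s φ : G))⁻¹ * g) * t * (((s φ : G))⁻¹ * g)⁻¹) * ((s φ : G))⁻¹ := by
      group
    rw [h2, mul_smul, mul_smul, hn]
    exact igst_smul_mem (s φ).2 (igst_smul_mem
      ((MulAction.stabilizer G Q).zpow_mem ht' n)
      (igst_smul_mem ((MulAction.stabilizer G Q).inv_mem (s φ).2) hb))
  have htop : MulAction.stabilizer G Q = ⊤ := by
    rw [eq_top_iff, ← hnc]
    refine (Subgroup.closure_le _).2 fun x hx => ?_
    obtain ⟨a, ha, hax⟩ := Group.mem_conjugatesOfSet_iff.1 hx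
    rw [Set.mem_singleton_iff] at ha
    subst ha
    obtain ⟨c, rfl⟩ := isConj_iff.1 hax
    exact hconjt c
  intro g b hb
  exact igst_smul_mem (htop ▸ Subgroup.mem_top g) hb

end Fermat.Agent.S48WG
end MergeWrap_S48_W_G_Red_Igusa_StabTop

section MergeWrap_S48_W_G_Red_Igusa_Degree -- from S48/W/G/Red/Igusa/Degree.lean

set_option autoImplicit false
set_option linter.unusedSectionVars false

namespace Fermat.Agent.S48WG

open Polynomial
open scoped Pointwise

namespace IgDeg

section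

variable {A₀ B : Type} [CommRing A₀] [CommRing B] [Algebra A₀ B]
  {G : Type} [Group G] [MulSemiringAction G B]
  (P : Ideal A₀) (Q : Ideal B) [Q.LiesOver P]
  (K L : Type) [Field K] [Field L] [Algebra (A₀ ⧸ P) K] [Algebra (B ⧸ Q) L]
  [Algebra (A₀ ⧸ P) L] [IsScalarTower (A₀ ⧸ P) (B ⧸ Q) L] [Algebra K L]
  [IsScalarTower (A₀ ⧸ P) K L]

/-- the reduction map `B → L`. -/
def red : B →+* L := (algebraMap (B ⧸ Q) L).comp (Ideal.Quotient.mk Q)

omit [Q.LiesOver P] in
theorem red_apply (x : B) : red Q L x = algebraMap (B ⧸ Q) L (Ideal.Quotient.mk Q x) := rfl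

theorem red_algebraMap (a : A₀) :
    red Q L (algebraMap A₀ B a) = algebraMap K L (algebraMap (A₀ ⧸ P) K (Ideal.Quotient.mk P a)) := by
  rw [red_apply, ← IsScalarTower.algebraMap_apply (A₀ ⧸ P) K L,
    IsScalarTower.algebraMap_apply (A₀ ⧸ P) (B ⧸ Q) L]
  rfl

end

section Fix

variable {B : Type} [CommRing B] {G : Type} [Group G] [MulSemiringAction G B]

/-- the ring of invariants of the normal core of `H`. -/
def fixRing (H : Subgroup G) : Subring B where
  carrier := {z | ∀ h ∈ H.normalCore, h • z = z}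
  mul_mem' := fun {a b} ha hb h hh => by rw [smul_mul', ha h hh, hb h hh]
  one_mem' := fun h _ => smul_one h
  add_mem' := fun {a b} ha hb h hh => by rw [smul_add, ha h hh, hb h hh]
  zero_mem' := fun h _ => smul_zero h
  neg_mem' := fun {a} ha h hh => by rw [smul_neg, ha h hh]

theorem mem_fixRing {H : Subgroup G} {z : B} :
    z ∈ fixRing (B := B) H ↔ ∀ h ∈ H.normalCore, h • z = z := Iff.rfl

theorem smul_mem_fixRing {H : Subgroup G} {z : B} (hz : z ∈ fixRing H) (g : G) :
    g • z ∈ fixRing H := by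
  intro h hh
  have h1 : g⁻¹ * h * g ∈ H.normalCore := by
    have := (Subgroup.normalCore_normal H).conj_mem h hh g⁻¹
    simpa using this
  have h2 : h * g = g * (g⁻¹ * h * g) := by group
  rw [← mul_smul, h2, mul_smul, hz _ h1]

theorem mem_fixRing_of_fixed {ι : Type} {y : ι → B} {H : Subgroup G}
    (hfix : ∀ h ∈ H, ∀ i, h • y i = y i) (i : ι) : y i ∈ fixRing H :=
  fun h hh => hfix h (H.normalCore_le hh) i

theorem smul_eq_smul_of_mem {H : Subgroup G} {z : B} (hz : z ∈ fixRing H) {g g' : G}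
    (h : g⁻¹ * g' ∈ H.normalCore) : g • z = g' • z := by
  have h1 := hz _ h
  have h2 : g' = g * (g⁻¹ * g') := by group
  rw [h2, mul_smul, h1]

/-- the relative trace of an element of `fixRing H` is `G`-invariant. -/
theorem smul_sum_out {H : Subgroup G} [Fintype (G ⧸ H.normalCore)] {z : B}
    (hz : z ∈ fixRing H) (g : G) :
    g • (∑ q : G ⧸ H.normalCore, (Quotient.out q : G) • z) =
      ∑ q : G ⧸ H.normalCore, (Quotient.out q : G) • z := by
  rw [Finset.smul_sum]
  have h1 : ∀ q : G ⧸ H.normalCore,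
      g • (Quotient.out q : G) • z = (Quotient.out (g • q) : G) • z := by
    intro q
    rw [← mul_smul]
    apply smul_eq_smul_of_mem hz
    rw [← QuotientGroup.eq, QuotientGroup.out_eq']
    conv_rhs => rw [← QuotientGroup.out_eq' q]
    rfl
  simp_rw [h1]
  exact Fintype.sum_equiv (MulAction.toPerm g) _ _ (fun q => rfl)

end Fix

section Sig

variable {A₀ B : Type} [CommRing A₀] [CommRing B] [Algebra A₀ B]
  {G : Type} [Group G] [Finite G] [MulSemiringAction G B] [SMulCommClass G A₀ B]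
  [Algebra.IsInvariant A₀ B G]
  (P : Ideal A₀) (Q : Ideal B) [Q.IsPrime] [Q.LiesOver P]
  (K L : Type) [Field K] [Field L] [Algebra (A₀ ⧸ P) K] [Algebra (B ⧸ Q) L]
  [Algebra (A₀ ⧸ P) L] [IsScalarTower (A₀ ⧸ P) (B ⧸ Q) L] [Algebra K L]
  [IsScalarTower (A₀ ⧸ P) K L] [IsFractionRing (A₀ ⧸ P) K] [IsFractionRing (B ⧸ Q) L]

theorem red_eq_iff (x x' : B) : red Q L x = red Q L x' ↔ x - x' ∈ Q := by
  rw [red_apply, red_apply, (IsFractionRing.injective (B ⧸ Q) L).eq_iff, Ideal.Quotient.eq]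

theorem smul_ideal_eq (hstab : ∀ (g : G), ∀ b ∈ Q, g • b ∈ Q) (g : G) : g • Q = Q := by
  ext x
  rw [Ideal.mem_pointwise_smul_iff_inv_smul_mem]
  constructor
  · intro h
    have := hstab g _ h
    rwa [smul_inv_smul] at this
  · intro h
    exact hstab g⁻¹ x h

/-- the automorphism of `L / K` induced by `g`. -/
noncomputable def sig (hstab : ∀ (g : G), ∀ b ∈ Q, g • b ∈ Q) (g : G) : L ≃ₐ[K] L :=
  IsFractionRing.stabilizerHom G P Q K L
    ⟨g, MulAction.mem_stabilizer_iff.2 (smul_ideal_eq Q hstab g)⟩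

theorem sig_red (hstab : ∀ (g : G), ∀ b ∈ Q, g • b ∈ Q) (g : G) (x : B) :
    sig P Q K L hstab g (red Q L x) = red Q L (g • x) :=
  IsFractionRing.stabilizerHom_apply_apply_mk G P Q K L _ x

variable {P Q K L}

/-- two cosets of the normal core with the same character coincide. -/
theorem core_mem_of_red_eq {ι : Type} {y : ι → B} {H : Subgroup G} (hD : DistinctRed G Q y H)
    {g g' : G}
    (h : ∀ z ∈ fixRing (B := B) H, red Q L (g • z) = red Q L (g' • z)) :
    g⁻¹ * g' ∈ H.normalCore := by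
  intro b
  have h1 : ∀ i, (g * b⁻¹) • y i - (g' * b⁻¹) • y i ∈ Q := by
    intro i
    have hz : b⁻¹ • y i ∈ fixRing (B := B) H :=
      smul_mem_fixRing (mem_fixRing_of_fixed hD.1 i) b⁻¹
    have := h _ hz
    rw [red_eq_iff] at this
    rwa [mul_smul, mul_smul]
  have h2 := hD.2 _ _ h1
  have h3 : (g * b⁻¹)⁻¹ * (g' * b⁻¹) = b * (g⁻¹ * g') * b⁻¹ := by group
  rwa [h3] at h2

/-- Dedekind: the relative trace does not vanish identically modulo `Q`. -/
theorem exists_sum_red_ne_zero {ι : Type} {y : ι → B} {H : Subgroup G}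
    (hD : DistinctRed G Q y H) [Fintype (G ⧸ H.normalCore)] :
    ∃ c ∈ fixRing (B := B) H, ∑ q : G ⧸ H.normalCore, red Q L ((Quotient.out q : G) • c) ≠ 0 := by
  classical
  let χ : G ⧸ H.normalCore → (↥(fixRing (B := B) H) →* L) := fun q =>
    (((red Q L).comp ((MulSemiringAction.toRingHom G B (Quotient.out q : G)).comp
      (fixRing (B := B) H).subtype) : ↥(fixRing (B := B) H) →+* L) :
        ↥(fixRing (B := B) H) →* L)
  have hχ : ∀ q (z : ↥(fixRing (B := B) H)), χ q z = red Q L ((Quotient.out q : G) • (z : B)) :=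
    fun q z => rfl
  have hinj : Function.Injective χ := by
    intro q q' hqq
    have h1 : (Quotient.out q : G)⁻¹ * (Quotient.out q' : G) ∈ H.normalCore := by
      apply core_mem_of_red_eq (L := L) hD
      intro z hz
      have := DFunLike.congr_fun hqq ⟨z, hz⟩
      rwa [hχ, hχ] at this
    rw [← QuotientGroup.eq, QuotientGroup.out_eq', QuotientGroup.out_eq'] at h1
    exact h1
  have hli := (linearIndependent_monoidHom ↥(fixRing (B := B) H) L).comp χ hinj
  by_contra hcon
  push Not at hcon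
  have hsum : ∑ q : G ⧸ H.normalCore, (1 : L) • ((fun f : ↥(fixRing (B := B) H) →* L =>
      (f : ↥(fixRing (B := B) H) → L)) ∘ χ) q = 0 := by
    funext z
    rw [Finset.sum_apply]
    simp only [one_smul, Function.comp_apply, Pi.zero_apply]
    have := hcon z.1 z.2
    simpa [hχ] using this
  have := Fintype.linearIndependent_iff.1 hli (fun _ => (1 : L)) hsum
    ((1 : G) : G ⧸ H.normalCore)
  exact one_ne_zero this

include P in
/-- **the trace trick**: a residue of an element of `fixRing H` which is fixed by `G` lies in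
`K`. -/
theorem red_mem_range_of_fixed {ι : Type} {y : ι → B} {H : Subgroup G}
    (hD : DistinctRed G Q y H) {b : B} (hb : b ∈ fixRing (B := B) H)
    (hfix : ∀ g : G, red Q L (g • b) = red Q L b) :
    red Q L b ∈ Set.range (algebraMap K L) := by
  classical
  have : Fintype (G ⧸ H.normalCore) := Fintype.ofFinite _
  obtain ⟨c, hc, hne⟩ := exists_sum_red_ne_zero (L := L) hD
  have hinv : ∀ z ∈ fixRing (B := B) H,
      red Q L (∑ q : G ⧸ H.normalCore, (Quotient.out q : G) • z) ∈
        Set.range (algebraMap K L) := by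
    intro z hz
    obtain ⟨a, ha⟩ := Algebra.IsInvariant.isInvariant (A := A₀) (G := G)
      (∑ q : G ⧸ H.normalCore, (Quotient.out q : G) • z) (smul_sum_out hz)
    rw [← ha, red_algebraMap P Q K L]
    exact ⟨_, rfl⟩
  obtain ⟨k₁, hk₁⟩ := hinv (c * b) (mul_mem hc hb)
  obtain ⟨k₂, hk₂⟩ := hinv c hc
  have h1 : red Q L (∑ q : G ⧸ H.normalCore, (Quotient.out q : G) • (c * b)) =
      red Q L (∑ q : G ⧸ H.normalCore, (Quotient.out q : G) • c) * red Q L b := by
    rw [map_sum, map_sum, Finset.sum_mul]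
    refine Finset.sum_congr rfl fun q _ => ?_
    rw [smul_mul', map_mul, hfix]
  have h2 : red Q L (∑ q : G ⧸ H.normalCore, (Quotient.out q : G) • c) ≠ 0 := by
    rwa [map_sum]
  refine ⟨k₁ / k₂, ?_⟩
  rw [map_div₀, hk₁, hk₂, h1, mul_comm, mul_div_assoc, div_self h2, mul_one]

include P in
/-- the residue of an element of `fixRing H` is separable over `K`. -/
theorem isSeparable_red {ι : Type} {y : ι → B} {H : Subgroup G}
    (hstab : ∀ (g : G), ∀ b ∈ Q, g • b ∈ Q) (hD : DistinctRed G Q y H) {x : B}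
    (hx : x ∈ fixRing (B := B) H) : IsSeparable K (red Q L x) := by
  classical
  have : Fintype G := Fintype.ofFinite G
  obtain ⟨T, hT⟩ : ∃ T : Finset L, T = Finset.univ.image (fun g : G => red Q L (g • x)) :=
    ⟨_, rfl⟩
  obtain ⟨m, hm⟩ : ∃ m : L[X], m = ∏ c ∈ T, (X - C c) := ⟨_, rfl⟩
  -- separable
  have hsep : m.Separable := by
    rw [hm]
    exact (separable_prod_X_sub_C_iff' (f := fun c : L => c) (s := T)).2 (fun a _ b _ h => h)
  -- root
  have hroot : m.eval (red Q L x) = 0 := by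
    rw [hm, Polynomial.eval_prod]
    apply Finset.prod_eq_zero (i := red Q L x)
    · rw [hT, Finset.mem_image]
      exact ⟨1, Finset.mem_univ _, by rw [one_smul]⟩
    · simp
  -- invariance
  have hTimg : ∀ g : G, T.image (sig P Q K L hstab g) = T := by
    intro g
    ext c
    rw [Finset.mem_image]
    constructor
    · rintro ⟨c', hc', rfl⟩
      rw [hT, Finset.mem_image] at hc'
      obtain ⟨g', -, rfl⟩ := hc'
      rw [sig_red, ← mul_smul, hT, Finset.mem_image]
      exact ⟨g * g', Finset.mem_univ _, rfl⟩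
    · intro hc
      rw [hT, Finset.mem_image] at hc
      obtain ⟨g', -, rfl⟩ := hc
      refine ⟨red Q L ((g⁻¹ * g') • x), ?_, ?_⟩
      · rw [hT, Finset.mem_image]
        exact ⟨g⁻¹ * g', Finset.mem_univ _, rfl⟩
      · rw [sig_red, ← mul_smul, mul_inv_cancel_left]
  have hmap : ∀ g : G, m.map ((sig P Q K L hstab g : L ≃ₐ[K] L) : L →+* L) = m := by
    intro g
    calc m.map ((sig P Q K L hstab g : L ≃ₐ[K] L) : L →+* L)
        = ∏ c ∈ T, (X - C (sig P Q K L hstab g c)) := by
          rw [hm, Polynomial.map_prod]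
          refine Finset.prod_congr rfl fun c _ => ?_
          rw [Polynomial.map_sub, Polynomial.map_X, Polynomial.map_C]
          rfl
      _ = ∏ c ∈ T.image (sig P Q K L hstab g), (X - C c) := by
          rw [Finset.prod_image (f := fun c : L => (X - C c : L[X]))
            (g := fun c : L => sig P Q K L hstab g c)
            (fun a _ b _ hab => (sig P Q K L hstab g).injective hab)]
      _ = m := by rw [hTimg g, hm]
  -- lift to `fixRing H`
  let φ : ↥(fixRing (B := B) H) →+* L := (red Q L).comp (fixRing (B := B) H).subtype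
  have hlift : m ∈ Polynomial.lifts φ := by
    rw [hm]
    apply Subsemiring.prod_mem
    intro c hc
    rw [hT, Finset.mem_image] at hc
    obtain ⟨g, -, rfl⟩ := hc
    rw [Polynomial.mem_lifts]
    refine ⟨X - C ⟨g • x, smul_mem_fixRing hx g⟩, ?_⟩
    rw [Polynomial.map_sub, Polynomial.map_X, Polynomial.map_C]
    rfl
  have hcoeff : ∀ n, m.coeff n ∈ Set.range (algebraMap K L) := by
    intro n
    obtain ⟨b, hb⟩ := (Polynomial.lifts_iff_coeff_lifts m).1 hlift n
    have hb' : red Q L (b : B) = m.coeff n := hb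
    rw [← hb']
    apply red_mem_range_of_fixed (P := P) hD b.2
    intro g
    rw [← sig_red P Q K L hstab, hb']
    conv_rhs => rw [← hmap g]
    rw [Polynomial.coeff_map]
    rfl
  have hlift' : m ∈ Polynomial.lifts (algebraMap K L) :=
    (Polynomial.lifts_iff_coeff_lifts m).2 hcoeff
  obtain ⟨m', hm'⟩ := (Polynomial.mem_lifts m).1 hlift'
  have hsep' : m'.Separable := (Polynomial.separable_map (algebraMap K L)).1 (hm' ▸ hsep)
  have haeval : Polynomial.aeval (red Q L x) m' = 0 := by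
    rw [Polynomial.aeval_def, Polynomial.eval₂_eq_eval_map, hm', hroot]
  exact hsep'.of_dvd (minpoly.dvd K _ haeval)

end Sig

end IgDeg

open IgDeg in
/-- **IG-ALG-2** -/
theorem degreeOfDistinct : DegreeStatement := by
  intro A₀ B _ _ _ G _ _ _ _ _ P Q _ _ K L _ _ _ _ _ _ _ _ _ _ ι _ y H hstab hD
  classical
  have hsep_i : ∀ i, IsSeparable K (red Q L (y i)) := fun i =>
    isSeparable_red (P := P) hstab hD (mem_fixRing_of_fixed hD.1 i)
  have hS : ∀ x ∈ redGen Q L y, IsSeparable K x := by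
    rintro _ ⟨i, rfl⟩
    exact hsep_i i
  have h1 : Algebra.IsSeparable K ↥(IntermediateField.adjoin K (redGen Q L y)) :=
    (IntermediateField.isSeparable_adjoin_iff_isSeparable K L).2 hS
  have hfin : Finite ↥(redGen Q L y) := Set.finite_range _
  have h2 : FiniteDimensional K ↥(IntermediateField.adjoin K (redGen Q L y)) :=
    IntermediateField.finiteDimensional_adjoin (fun x hx => (hS x hx).isIntegral)
  refine ⟨h1, h2, ?_⟩
  let f : G ⧸ H → (↥(IntermediateField.adjoin K (redGen Q L y)) →ₐ[K] L) := fun q =>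
    ((sig P Q K L hstab (Quotient.out q : G) : L ≃ₐ[K] L) : L →ₐ[K] L).comp
      (IntermediateField.adjoin K (redGen Q L y)).val
  have hf : Function.Injective f := by
    intro q q' hqq
    have h3 : ∀ i, (Quotient.out q : G) • y i - (Quotient.out q' : G) • y i ∈ Q := by
      intro i
      have hmem : red Q L (y i) ∈ IntermediateField.adjoin K (redGen Q L y) :=
        IntermediateField.subset_adjoin K _ ⟨i, rfl⟩
      have := DFunLike.congr_fun hqq ⟨red Q L (y i), hmem⟩
      have h4 : sig P Q K L hstab (Quotient.out q : G) (red Q L (y i)) =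
          sig P Q K L hstab (Quotient.out q' : G) (red Q L (y i)) := this
      rw [sig_red, sig_red, red_eq_iff] at h4
      exact h4
    have h5 := hD.2 _ _ h3
    rw [← QuotientGroup.eq, QuotientGroup.out_eq', QuotientGroup.out_eq'] at h5
    exact h5
  have hfinite : Finite (↥(IntermediateField.adjoin K (redGen Q L y)) →ₐ[K] L) := inferInstance
  calc H.index = Nat.card (G ⧸ H) := rfl
    _ ≤ Nat.card (↥(IntermediateField.adjoin K (redGen Q L y)) →ₐ[K] L) :=
        Nat.card_le_card_of_injective f hf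
    _ ≤ Module.finrank K ↥(IntermediateField.adjoin K (redGen Q L y)) :=
        card_algHom_le_finrank K _ L

end Fermat.Agent.S48WG
end MergeWrap_S48_W_G_Red_Igusa_Degree

section MergeWrap_S48_W_G_Red_Igusa_AbsCore -- from S48/W/G/Red/Igusa/AbsCore.lean

set_option autoImplicit false
set_option linter.style.haveILetI false

noncomputable section

namespace Fermat.Agent.S48WG

/-- `A₀ / (Q ∩ A₀) → Frac (B / Q)` is injective. -/
theorem ig_faithful_under {A₀ B : Type} [CommRing A₀] [CommRing B] [Algebra A₀ B]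
    (Q : Ideal B) [Q.IsPrime] :
    FaithfulSMul (A₀ ⧸ Q.under A₀) (FractionRing (B ⧸ Q)) := by
  rw [faithfulSMul_iff_algebraMap_injective,
    IsScalarTower.algebraMap_eq (A₀ ⧸ Q.under A₀) (B ⧸ Q) (FractionRing (B ⧸ Q))]
  exact (FaithfulSMul.algebraMap_injective (B ⧸ Q) (FractionRing (B ⧸ Q))).comp
    (FaithfulSMul.algebraMap_injective (A₀ ⧸ Q.under A₀) (B ⧸ Q))

/-- **the Dedekind argument inside `Ω`**. -/
theorem ig_core (A₀ B : Type) [CommRing A₀] [CommRing B] [Algebra A₀ B]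
    (G : Type) [Group G] [Finite G] [MulSemiringAction G B] [SMulCommClass G A₀ B]
    [Algebra.IsInvariant A₀ B G] (Ω : Type) [Field Ω] (ρ : B →+* Ω)
    (F : Type) [Field F] [Algebra F Ω]
    (hF : Set.range (algebraMap F Ω) =
      ↑(Subfield.closure (Set.range (ρ.comp (algebraMap A₀ B)))))
    (t : G) (ι₀ : Type) [Finite ι₀] (y₀ : ι₀ → B) (H₀ : Subgroup G)
    (ι₁ : Type) [Finite ι₁] (y₁ : ι₁ → B) (H₁ : Subgroup G)
    (ht : ∀ b : B, ρ b = 0 → ρ (t • b) = 0)
    (hnc : Subgroup.normalClosure {t} = ⊤)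
    (hD₀ : DistinctRed G (RingHom.ker ρ) y₀ H₀)
    (hconj : ∀ h ∈ H₀, ∃ n : ℤ, ∀ b : B, (h * t * h⁻¹) • b = t ^ n • b)
    (hsep : Algebra.IsSeparable F
      ↥(IntermediateField.adjoin F (Set.range fun i => ρ (y₀ i))))
    (hdeg : H₀.index ≤ Module.finrank F
      ↥(IntermediateField.adjoin F (Set.range fun i => ρ (y₀ i))))
    (hD₁ : DistinctRed G (RingHom.ker ρ) y₁ H₁) :
    Algebra.IsSeparable F ↥(IntermediateField.adjoin F (Set.range fun i => ρ (y₁ i))) ∧
      FiniteDimensional F ↥(IntermediateField.adjoin F (Set.range fun i => ρ (y₁ i))) ∧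
      H₁.index ≤ Module.finrank F
        ↥(IntermediateField.adjoin F (Set.range fun i => ρ (y₁ i))) := by
  have hQp : (RingHom.ker ρ).IsPrime := RingHom.ker_isPrime ρ
  have hfaith : FaithfulSMul (A₀ ⧸ (RingHom.ker ρ).under A₀)
      (FractionRing (B ⧸ RingHom.ker ρ)) := ig_faithful_under (RingHom.ker ρ)
  letI alg : Algebra (FractionRing (A₀ ⧸ (RingHom.ker ρ).under A₀))
      (FractionRing (B ⧸ RingHom.ker ρ)) :=
    FractionRing.liftAlgebra (A₀ ⧸ (RingHom.ker ρ).under A₀) (FractionRing (B ⧸ RingHom.ker ρ))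
  have htow : IsScalarTower (A₀ ⧸ (RingHom.ker ρ).under A₀)
      (FractionRing (A₀ ⧸ (RingHom.ker ρ).under A₀)) (FractionRing (B ⧸ RingHom.ker ρ)) :=
    FractionRing.isScalarTower_liftAlgebra (A₀ ⧸ (RingHom.ker ρ).under A₀)
      (FractionRing (B ⧸ RingHom.ker ρ))
  have hstab : ∀ (g : G), ∀ b ∈ RingHom.ker ρ, g • b ∈ RingHom.ker ρ :=
    stabTop A₀ B G ((RingHom.ker ρ).under A₀) (RingHom.ker ρ)
      (FractionRing (A₀ ⧸ (RingHom.ker ρ).under A₀)) (FractionRing (B ⧸ RingHom.ker ρ))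
      t ι₀ y₀ H₀ (fun b hb => ht b hb) hnc hD₀
      ((ig_bridge_isSeparable_iff ρ ((RingHom.ker ρ).under A₀) (RingHom.ker ρ)
        (FractionRing (A₀ ⧸ (RingHom.ker ρ).under A₀)) (FractionRing (B ⧸ RingHom.ker ρ))
        rfl y₀ F hF).mpr hsep)
      (by
        rw [ig_bridge_finrank ρ ((RingHom.ker ρ).under A₀) (RingHom.ker ρ)
          (FractionRing (A₀ ⧸ (RingHom.ker ρ).under A₀)) (FractionRing (B ⧸ RingHom.ker ρ))
          rfl y₀ F hF]
        exact hdeg) hconj
  obtain ⟨h1, h2, h3⟩ := degreeOfDistinct A₀ B G ((RingHom.ker ρ).under A₀) (RingHom.ker ρ)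
      (FractionRing (A₀ ⧸ (RingHom.ker ρ).under A₀)) (FractionRing (B ⧸ RingHom.ker ρ))
      ι₁ y₁ H₁ hstab hD₁
  refine ⟨?_, ?_, ?_⟩
  · exact (ig_bridge_isSeparable_iff ρ ((RingHom.ker ρ).under A₀) (RingHom.ker ρ)
        (FractionRing (A₀ ⧸ (RingHom.ker ρ).under A₀)) (FractionRing (B ⧸ RingHom.ker ρ))
        rfl y₁ F hF).mp h1
  · exact (ig_bridge_finiteDimensional_iff ρ ((RingHom.ker ρ).under A₀) (RingHom.ker ρ)
        (FractionRing (A₀ ⧸ (RingHom.ker ρ).under A₀)) (FractionRing (B ⧸ RingHom.ker ρ))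
        rfl y₁ F hF).mp h2
  · rw [← ig_bridge_finrank ρ ((RingHom.ker ρ).under A₀) (RingHom.ker ρ)
        (FractionRing (A₀ ⧸ (RingHom.ker ρ).under A₀)) (FractionRing (B ⧸ RingHom.ker ρ))
        rfl y₁ F hF]
    exact h3

end Fermat.Agent.S48WG
end
end MergeWrap_S48_W_G_Red_Igusa_AbsCore
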