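import Mathlib
import Fermat.Agent.MUL.S48.W.G.Red.Igusa.LeafDefs
import Fermat.Agent.MUL.S48.W.A1.XExp
import Fermat.Agent.MUL.S48.W.A1.FExp
import Fermat.Agent.MUL.S48.W.A1.Slash
import Fermat.Agent.MUL.S48.W.A1.EqExp
import Fermat.Agent.MUL.S48.W.G.Red.Fund

section MergeWrap_S48_W_G_Red_Igusa_FExp -- from S48/W/G/Red/Igusa/FExp.lean

set_option autoImplicit false

noncomputable section

namespace Fermat.Agent.S48WG

open UpperHalfPlane ModularCurve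
open Fermat.Agent.S24 Fermat.Agent.S48W Fermat.Agent.S48WA1
open scoped MatrixGroups Real

/-! ### powers of a root of unity -/

section zpow

variable {K : Type*} [Field K] {M : ℕ} [NeZero M] {ζ : K}

theorem igfexp_ne_zero (hζ : ζ ^ M = 1) : ζ ≠ 0 := by
  rintro rfl
  rw [zero_pow (NeZero.ne M)] at hζ
  exact zero_ne_one hζ

/-- `ζ ^ t = ζ ^ (t mod M).val`. -/
theorem igfexp_zpow (hζ : ζ ^ M = 1) (t : ℤ) : ζ ^ t = ζ ^ ((t : ℤ) : ZMod M).val := by
  have h0 := igfexp_ne_zero hζ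
  have h1 : (((t : ZMod M).val : ℕ) : ℤ) = t % M := ZMod.val_intCast t
  have h2 : t = t % M + M * (t / M) := (Int.emod_add_mul_ediv t M).symm
  rw [← zpow_natCast ζ ((t : ZMod M).val), h1]
  conv_lhs => rw [h2]
  rw [zpow_add₀ h0, zpow_mul, zpow_natCast, hζ, one_zpow, mul_one]

theorem igfexp_zpow_mul (hζ : ζ ^ M = 1) (t : ℤ) (k : ℕ) :
    ζ ^ (t * (k : ℤ)) = ζ ^ (((t : ℤ) : ZMod M).val * k) := by
  rw [zpow_mul, zpow_natCast, igfexp_zpow hζ t, pow_mul]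

theorem igfexp_zpow_neg_mul (hζ : ζ ^ M = 1) (t : ℤ) (k : ℕ) :
    ζ ^ (-(t * (k : ℤ))) = ζ ^ ((-((t : ℤ) : ZMod M)).val * k) := by
  rw [← neg_mul, igfexp_zpow_mul hζ (-t) k, Int.cast_neg]

end zpow

/-! ### the coefficients -/

theorem igfexp_coeff (M : ℕ) [NeZero M] (ζ : Kbar) (hζ : ζ ^ M = 1) (r s : ℤ) (n : ℕ) :
    xCoeff M ζ r s n = igCoeff M ζ ((r : ℤ) : ZMod M) ((s : ℤ) : ZMod M) n := by
  unfold xCoeff igCoeff igConst igTerm
  have hdvd : ((M : ℤ) ∣ r) ↔ ((r : ℤ) : ZMod M) = 0 :=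
    (ZMod.intCast_zmod_eq_zero_iff_dvd r M).symm
  congr 1
  · congr 1
    by_cases hn : n = 0
    · simp only [hn, if_true]
      by_cases hr : ((r : ℤ) : ZMod M) = 0
      · rw [if_pos (hdvd.mpr hr), if_pos hr, igfexp_zpow hζ s]
      · rw [if_neg (fun h => hr (hdvd.mp h)), if_neg hr, add_zero]
    · simp only [hn, if_false]
  · congr 1
    refine Finset.sum_congr rfl fun d _ => ?_
    rw [igfexp_zpow_mul hζ s (n / d), igfexp_zpow_neg_mul hζ s (n / d)]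

theorem igfexp_root (M : ℕ) [NeZero M] (ζ : Kbar)
    (hζ : iota ζ = Complex.exp (2 * π * Complex.I / M)) : ζ ^ M = 1 := by
  apply iota_injective
  rw [map_pow, map_one, hζ, ← Complex.exp_nat_mul]
  have hM : (M : ℂ) ≠ 0 := Nat.cast_ne_zero.mpr (NeZero.ne M)
  rw [mul_div_cancel₀ _ hM]
  exact Complex.exp_two_pi_mul_I

theorem igfexp_series (M : ℕ) [NeZero M] (ζ : Kbar) (hζ : ζ ^ M = 1) (r s : ℤ) :
    igF M ζ ((r : ℤ) : ZMod M) ((s : ℤ) : ZMod M)
      = qExpand Kbar M (coeffEmb Kbar eisQuot) *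
          HahnSeries.ofPowerSeries ℤ Kbar (PowerSeries.mk (xCoeff M ζ (r % M) s)) := by
  unfold igF igE
  rw [coeffEmb_qExpand_w]
  congr 2
  ext n
  rw [coeff_igX, PowerSeries.coeff_mk, igfexp_coeff M ζ hζ (r % M) s n]
  congr 1
  rw [ZMod.intCast_eq_intCast_iff]
  exact (Int.mod_modEq r M).symm

/-- **(IG-FEXP)** the expansion of the Fricke function `F_{(r,s)}` is `igF M ζ r s`. -/
theorem igFExp : IgFExpStatement := by
  intro M _ ζ hζ r s hrs
  have hr := fexp_emod_range (M := M) r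
  have h1 := xExp M ζ hζ (r % M) s hr.1 hr.2 (fexp_isNZ_emod hrs)
  have h2 := (fexp_eq_level Fermat.Agent.S48WA1Eq.eqExp M).mul (HasExp.of_hasPExp h1)
  rw [frickeFun, fexp_xFun_emod xPeriod hrs, igfexp_series M ζ (igfexp_root M ζ hζ) r s]
  exact h2

end Fermat.Agent.S48WG
end
end MergeWrap_S48_W_G_Red_Igusa_FExp
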