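import Mathlib
import Fermat.Agent.MUL.S48.W.G.Red.Igusa.LeafDefs
import Fermat.Agent.MUL.Lib.BadRed.Mod.SSCount23
import Fermat.Agent.MUL.S48.Neb.Main

section MergeWrap_S48_W_G_Red_Igusa_ClusterB -- from S48/W/G/Red/Igusa/ClusterB.lean

set_option autoImplicit false
set_option linter.unusedSectionVars false
set_option linter.style.haveILetI false
set_option synthInstance.maxHeartbeats 400000

noncomputable section

namespace Fermat.Agent.S48WG

open ModularCurve IntermediateField Fermat.Agent.GaussInt Fermat.Agent.S48W Fermat.Agent.S24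

/-! ### generic transport along an endomorphism of the ambient field -/

section Transport

variable {k L : Type*} [Field k] [Field L] [Algebra k L] (θ : L →+* L)

/-- `θ` maps `k(x)` into `k(θ x)`. -/
theorem igB_transport_mem_base (hθ : ∀ a : k, θ (algebraMap k L a) = algebraMap k L a)
    (E : IntermediateField k L) (x : ↥E) (xb : L) (hxb : θ (x : L) = xb)
    (a : ↥E) (ha : a ∈ k⟮x⟯) : θ (a : L) ∈ k⟮xb⟯ := by
  induction ha using IntermediateField.adjoin_induction with
  | mem y hy =>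
    rw [Set.mem_singleton_iff] at hy
    rw [hy, hxb]
    exact IntermediateField.mem_adjoin_simple_self k xb
  | algebraMap c =>
    have : ((algebraMap k ↥E c : ↥E) : L) = algebraMap k L c := rfl
    rw [this, hθ]
    exact IntermediateField.algebraMap_mem _ c
  | add y z _ _ hy hz =>
    have : ((y + z : ↥E) : L) = (y : L) + (z : L) := rfl
    rw [this, map_add]
    exact add_mem hy hz
  | inv y _ hy =>
    have : ((y⁻¹ : ↥E) : L) = ((y : L))⁻¹ := rfl
    rw [this, map_inv₀]
    exact inv_mem hy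
  | mul y z _ _ hy hz =>
    have : ((y * z : ↥E) : L) = (y : L) * (z : L) := rfl
    rw [this, map_mul]
    exact mul_mem hy hz

/-- every element of `k(θ x)` is the image of an element of `k(x)`. -/
theorem igB_transport_base_surj (hθ : ∀ a : k, θ (algebraMap k L a) = algebraMap k L a)
    (E : IntermediateField k L) (x : ↥E) (xb : L) (hxb : θ (x : L) = xb)
    (c : L) (hc : c ∈ k⟮xb⟯) :
    ∃ a : ↥E, a ∈ k⟮x⟯ ∧ θ (a : L) = c := by
  induction hc using IntermediateField.adjoin_induction with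
  | mem y hy =>
    rw [Set.mem_singleton_iff] at hy
    exact ⟨x, IntermediateField.mem_adjoin_simple_self k x, by rw [hxb, hy]⟩
  | algebraMap c =>
    exact ⟨algebraMap k ↥E c, IntermediateField.algebraMap_mem _ c, hθ c⟩
  | add y z _ _ hy hz =>
    obtain ⟨a, ha, rfl⟩ := hy
    obtain ⟨b, hb, rfl⟩ := hz
    exact ⟨a + b, add_mem ha hb, map_add θ _ _⟩
  | inv y _ hy =>
    obtain ⟨a, ha, rfl⟩ := hy
    exact ⟨a⁻¹, inv_mem ha, map_inv₀ θ _⟩
  | mul y z _ _ hy hz =>
    obtain ⟨a, ha, rfl⟩ := hy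
    obtain ⟨b, hb, rfl⟩ := hz
    exact ⟨a * b, mul_mem ha hb, map_mul θ _ _⟩

/-- every element of `k(θ x)(T)` is the image of an element of `E`, if `T ⊆ θ E`. -/
theorem igB_transport_surj (hθ : ∀ a : k, θ (algebraMap k L a) = algebraMap k L a)
    (E : IntermediateField k L) (x : ↥E) (xb : L) (hxb : θ (x : L) = xb) (T : Set L)
    (hT : ∀ t ∈ T, ∃ s ∈ E, θ s = t) (r : L)
    (hr : r ∈ IntermediateField.adjoin ↥(k⟮xb⟯) T) : ∃ s ∈ E, θ s = r := by
  induction hr using IntermediateField.adjoin_induction with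
  | mem y hy => exact hT y hy
  | algebraMap c =>
    obtain ⟨a, -, ha⟩ := igB_transport_base_surj θ hθ E x xb hxb (c : L) c.2
    exact ⟨(a : L), a.2, ha⟩
  | add y z _ _ hy hz =>
    obtain ⟨a, ha, rfl⟩ := hy
    obtain ⟨b, hb, rfl⟩ := hz
    exact ⟨a + b, add_mem ha hb, map_add θ _ _⟩
  | inv y _ hy =>
    obtain ⟨a, ha, rfl⟩ := hy
    exact ⟨a⁻¹, inv_mem ha, map_inv₀ θ _⟩
  | mul y z _ _ hy hz =>
    obtain ⟨a, ha, rfl⟩ := hy
    obtain ⟨b, hb, rfl⟩ := hz
    exact ⟨a * b, mul_mem ha hb, map_mul θ _ _⟩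

/-- the isomorphism `k(x) ≅ k(θ x)` induced by `θ`. -/
def igBTransportBase (hθ : ∀ a : k, θ (algebraMap k L a) = algebraMap k L a)
    (E : IntermediateField k L) (x : ↥E) (xb : L) (hxb : θ (x : L) = xb) :
    ↥(k⟮x⟯) ≃+* ↥(k⟮xb⟯) :=
  RingEquiv.ofBijective
    ({ toFun := fun a => ⟨θ ((a : ↥E) : L), igB_transport_mem_base θ hθ E x xb hxb a a.2⟩
       map_one' := Subtype.ext (map_one θ)
       map_mul' := fun a b => Subtype.ext (map_mul θ _ _)
       map_zero' := Subtype.ext (map_zero θ)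
       map_add' := fun a b => Subtype.ext (map_add θ _ _) } : ↥(k⟮x⟯) →+* ↥(k⟮xb⟯))
    ⟨fun a b hab => by
        have h1 : θ ((a : ↥E) : L) = θ ((b : ↥E) : L) := congrArg Subtype.val hab
        exact Subtype.ext (Subtype.ext (θ.injective h1)),
      fun c => by
        obtain ⟨a, ha, hac⟩ := igB_transport_base_surj θ hθ E x xb hxb (c : L) c.2
        exact ⟨⟨a, ha⟩, Subtype.ext hac⟩⟩

/-- the isomorphism `E ≅ k(θ x)(T)` induced by `θ`. -/
def igBTransportTop (hθ : ∀ a : k, θ (algebraMap k L a) = algebraMap k L a)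
    (E : IntermediateField k L) (x : ↥E) (xb : L) (hxb : θ (x : L) = xb) (T : Set L)
    (hT : ∀ t ∈ T, ∃ s ∈ E, θ s = t)
    (hE : ∀ s ∈ E, θ s ∈ IntermediateField.adjoin ↥(k⟮xb⟯) T) :
    ↥E ≃+* ↥(IntermediateField.adjoin ↥(k⟮xb⟯) T) :=
  RingEquiv.ofBijective
    ({ toFun := fun s => ⟨θ (s : L), hE s s.2⟩
       map_one' := Subtype.ext (map_one θ)
       map_mul' := fun a b => Subtype.ext (map_mul θ _ _)
       map_zero' := Subtype.ext (map_zero θ)
       map_add' := fun a b => Subtype.ext (map_add θ _ _) } :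
      ↥E →+* ↥(IntermediateField.adjoin ↥(k⟮xb⟯) T))
    ⟨fun a b hab => by
        have h1 : θ (a : L) = θ (b : L) := congrArg Subtype.val hab
        exact Subtype.ext (θ.injective h1),
      fun r => by
        obtain ⟨s, hs, hsr⟩ := igB_transport_surj θ hθ E x xb hxb T hT (r : L) r.2
        exact ⟨⟨s, hs⟩, Subtype.ext hsr⟩⟩

theorem igBTransport_comm (hθ : ∀ a : k, θ (algebraMap k L a) = algebraMap k L a)
    (E : IntermediateField k L) (x : ↥E) (xb : L) (hxb : θ (x : L) = xb) (T : Set L)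
    (hT : ∀ t ∈ T, ∃ s ∈ E, θ s = t)
    (hE : ∀ s ∈ E, θ s ∈ IntermediateField.adjoin ↥(k⟮xb⟯) T) :
    (algebraMap ↥(k⟮xb⟯) ↥(IntermediateField.adjoin ↥(k⟮xb⟯) T)).comp
        (igBTransportBase θ hθ E x xb hxb : ↥(k⟮x⟯) →+* ↥(k⟮xb⟯)) =
      ((igBTransportTop θ hθ E x xb hxb T hT hE : ↥E →+* _)).comp (algebraMap ↥(k⟮x⟯) ↥E) := by
  ext a
  rfl

/-- **transport of separability and degree** along `θ`. -/
theorem igB_transport (hθ : ∀ a : k, θ (algebraMap k L a) = algebraMap k L a)
    (E : IntermediateField k L) (x : ↥E) (xb : L) (hxb : θ (x : L) = xb) (T : Set L)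
    (hT : ∀ t ∈ T, ∃ s ∈ E, θ s = t)
    (hE : ∀ s ∈ E, θ s ∈ IntermediateField.adjoin ↥(k⟮xb⟯) T) :
    (Algebra.IsSeparable ↥(k⟮x⟯) ↥E →
      Algebra.IsSeparable ↥(k⟮xb⟯) ↥(IntermediateField.adjoin ↥(k⟮xb⟯) T)) ∧
    Module.finrank ↥(k⟮x⟯) ↥E =
      Module.finrank ↥(k⟮xb⟯) ↥(IntermediateField.adjoin ↥(k⟮xb⟯) T) := by
  refine ⟨fun hsep => ?_, ?_⟩
  · haveI := hsep
    exact Algebra.IsSeparable.of_equiv_equiv (igBTransportBase θ hθ E x xb hxb)
      (igBTransportTop θ hθ E x xb hxb T hT hE) (igBTransport_comm θ hθ E x xb hxb T hT hE)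
  · exact Algebra.finrank_eq_of_equiv_equiv (igBTransportBase θ hθ E x xb hxb)
      (igBTransportTop θ hθ E x xb hxb T hT hE) (igBTransport_comm θ hθ E x xb hxb T hT hE)

end Transport

/-! ### reductions of the series `j(u^n)` -/

section Red

theorem igB_coeffMap_qExpand {R S : Type*} [CommRing R] [CommRing S] (f : R →+* S) (n : ℕ)
    [NeZero n] (x : LaurentSeries R) : coeffMap f (qExpand R n x) = qExpand S n (coeffMap f x) := by
  ext m
  by_cases hm : (n : ℤ) ∣ m
  · obtain ⟨l, rfl⟩ := hm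
    rw [coeffMap_coeff, qExpand_coeff_mul, qExpand_coeff_mul, coeffMap_coeff]
  · rw [coeffMap_coeff, qExpand_coeff_of_not_dvd n _ hm, qExpand_coeff_of_not_dvd n _ hm,
      map_zero]

variable (A : ValuationSubring Kbar)

/-- the reduction of `j(u^n)` is `j̄(u^n)`. -/
theorem igB_redSer_qExpand_jqModC (n : ℕ) [NeZero n] :
    redSer A (qExpand Kbar n (jqModC Kbar)) =
      qExpand (IsLocalRing.ResidueField A) n (jqModC (IsLocalRing.ResidueField A)) := by
  have h1 : qExpand Kbar n (jqModC Kbar) = emb A (qExpand ↥A n (jqModC ↥A)) := by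
    rw [emb, igB_coeffMap_qExpand, coeffMap_jqModC]
  have hmem : emb A (qExpand ↥A n (jqModC ↥A)) ∈
      (⊤ : IntermediateField Kbar (LaurentSeries Kbar)) := IntermediateField.mem_top
  rw [redSer, h1, gaussResFun_emb hmem, red, igB_coeffMap_qExpand, coeffMap_jqModC]

theorem igB_redSer_zero : redSer A (0 : LaurentSeries Kbar) = 0 := by
  have h := gaussResFun_eq (A := A) (F := (⊤ : IntermediateField Kbar (LaurentSeries Kbar)))
    IsPres.zero
  rw [redSer, h]
  simp

variable (M : ℕ) [NeZero M]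

/-- the reductions of the family `jdFamExp`. -/
theorem igB_redSer_jdFamExp (i : Fin M) :
    redSer A (jdFamExp M i) =
      if (i.val + 1) ∣ M then
        qExpand (IsLocalRing.ResidueField A) M
          (qExpand (IsLocalRing.ResidueField A) (i.val + 1)
            (jqModC (IsLocalRing.ResidueField A)))
      else 0 := by
  unfold jdFamExp
  split_ifs with h
  · rw [igB_redSer_qExpand_jqModC, qExpand_qExpand]
  · exact igB_redSer_zero A

end Red

/-! ### the leaf -/

/-- **(IG-B)** cluster B transported along `q ↦ u^M`. -/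
theorem igB : IgBStatement := by
  intro M _ p hp hpM A hA
  haveI : IsAlgClosed (IsLocalRing.ResidueField A) :=
    Fermat.Agent.FrobTrace.isAlgClosed_residueField A
  set k := IsLocalRing.ResidueField A with hk
  have hxb : (qExpand k M : LaurentSeries k →+* LaurentSeries k)
      ((Fermat.Agent.RRMod.jC k M : ↥(modularFunctionFieldFullC k M)) : LaurentSeries k) =
      redSer A (qExpand Kbar M (jqModC Kbar)) := by
    rw [igB_redSer_qExpand_jqModC]
    rfl
  have hθ : ∀ a : k, (qExpand k M : LaurentSeries k →+* LaurentSeries k)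
      (algebraMap k (LaurentSeries k) a) = algebraMap k (LaurentSeries k) a := by
    intro a
    rw [algebraMap_laurentSeries_eq_single, qExpand_single, mul_zero]
  have hT : ∀ t ∈ Set.range (fun i : Fin M => redSer A (jdFamExp M i)),
      ∃ s ∈ modularFunctionFieldFullC k M, (qExpand k M) s = t := by
    rintro t ⟨i, rfl⟩
    show ∃ s ∈ modularFunctionFieldFullC k M, (qExpand k M) s = redSer A (jdFamExp M i)
    rw [igB_redSer_jdFamExp]
    split_ifs with h
    · exact ⟨_, jqModCd_mem_full k M h, rfl⟩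
    · exact ⟨0, zero_mem _, map_zero _⟩
  have hE : ∀ s ∈ modularFunctionFieldFullC k M, (qExpand k M) s ∈
      IntermediateField.adjoin ↥(k⟮redSer A (qExpand Kbar M (jqModC Kbar))⟯)
        (Set.range (fun i : Fin M => redSer A (jdFamExp M i))) := by
    intro s hs
    unfold modularFunctionFieldFullC at hs
    induction hs using IntermediateField.adjoin_induction with
    | mem y hy =>
      obtain ⟨d, hd0, hd, rfl⟩ := hy
      have hdpos : 0 < d := Nat.pos_of_ne_zero (NeZero.ne d)
      have hdM : d ≤ M := Nat.le_of_dvd (Nat.pos_of_ne_zero (NeZero.ne M)) hd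
      have hi : d - 1 < M := by omega
      have hd1 : d - 1 + 1 = d := by omega
      refine IntermediateField.subset_adjoin _ _ ⟨⟨d - 1, hi⟩, ?_⟩
      show redSer A (jdFamExp M ⟨d - 1, hi⟩) = _
      rw [igB_redSer_jdFamExp]
      have hdvd : ((⟨d - 1, hi⟩ : Fin M).val + 1) ∣ M := by
        show d - 1 + 1 ∣ M
        rw [hd1]; exact hd
      rw [if_pos hdvd]
      congr 1
      exact qExpand_congr (by show d - 1 + 1 = d; exact hd1) _
    | algebraMap c =>
      rw [hθ]
      exact (IntermediateField.adjoin ↥(k⟮redSer A (qExpand Kbar M (jqModC Kbar))⟯)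
        (Set.range (fun i : Fin M => redSer A (jdFamExp M i)))).algebraMap_mem
          (algebraMap k ↥(k⟮redSer A (qExpand Kbar M (jqModC Kbar))⟯) c)
    | add y z _ _ hy hz => rw [map_add]; exact add_mem hy hz
    | inv y _ hy => rw [map_inv₀]; exact inv_mem hy
    | mul y z _ _ hy hz => rw [map_mul]; exact mul_mem hy hz
  obtain ⟨hsep, hdeg⟩ := igB_transport (qExpand k M) hθ (modularFunctionFieldFullC k M)
    (Fermat.Agent.RRMod.jC k M) (redSer A (qExpand Kbar M (jqModC Kbar))) hxb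
    (Set.range (fun i : Fin M => redSer A (jdFamExp M i))) hT hE
  refine ⟨hsep (Fermat.Agent.RRMod.isSeparable_fullC' k M), ?_⟩
  have hfin := Fermat.Agent.GaussVal.finrank_fullC_of_isAlgClosed A p M hp hA hpM
    (Fermat.Agent.RRMod.jC k M) rfl
  rw [Fermat.Agent.IgusaDeg.card_Q_eq_index] at hfin
  show (CongruenceSubgroup.Gamma0 M).index ≤
    Module.finrank ↥(k⟮redSer A (qExpand Kbar M (jqModC Kbar))⟯)
      ↥(IntermediateField.adjoin ↥(k⟮redSer A (qExpand Kbar M (jqModC Kbar))⟯)
        (Set.range (fun i : Fin M => redSer A (jdFamExp M i))))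
  rw [← hdeg, hfin]

end Fermat.Agent.S48WG
end
end MergeWrap_S48_W_G_Red_Igusa_ClusterB
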